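import Mathlib.Algebra.Polynomial.Homogenize
import Mathlib.Analysis.Complex.Polynomial.Basic

/-!
# Binary forms by their linear factors

A binary form of degree `n` is a polynomial of degree at most `n`, homogenised.
-/

set_option autoImplicit false

noncomputable section

namespace FA.BirchMerriman

open Finset Polynomial
open MvPolynomial (aeval)

variable {R : Type*} [CommRing R] {n : ℕ}

/-- The value at `(x, y)` of the form of degree `n` of `f`. -/
def binEval (n : ℕ) (f : ℤ[X]) (x y : R) : R := aeval ![x, y] (f.homogenize n)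

/-- `Y ^ (n - deg f) f (X / Y)` and `Y ^ (n - deg g) g (X / Y)` are properly equivalent. -/
def SLEquiv (n : ℕ) (f g : ℤ[X]) : Prop :=
  ∃ a b c d : ℤ, a * d - b * c = 1 ∧ g.homogenize n =
    aeval ![MvPolynomial.C a * MvPolynomial.X 0 + MvPolynomial.C b * MvPolynomial.X 1,
      MvPolynomial.C c * MvPolynomial.X 0 + MvPolynomial.C d * MvPolynomial.X 1] (f.homogenize n)

theorem binEval_one {f : ℤ[X]} (hf : f.natDegree ≤ n) (x : R) :
    binEval n f x 1 = Polynomial.aeval x f :=
  (aeval_homogenize_of_eq_one hf _ (by simp)).trans (by simp)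

/-- A substitution gives a form of the same degree. -/
theorem exists_subst (f : ℤ[X]) (n : ℕ) {a b c d : ℤ} (hdet : a * d - b * c = 1) :
    ∃ g : ℤ[X], g.natDegree ≤ n ∧ SLEquiv n f g ∧
      ∀ x y : ℂ, binEval n g x y = binEval n f (a * x + b * y) (c * x + d * y) := by
  set v : Fin 2 → MvPolynomial (Fin 2) ℤ :=
    ![MvPolynomial.C a * MvPolynomial.X 0 + MvPolynomial.C b * MvPolynomial.X 1,
      MvPolynomial.C c * MvPolynomial.X 0 + MvPolynomial.C d * MvPolynomial.X 1] with hv
  set G := aeval v (f.homogenize n) with hG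
  have hGh : G.IsHomogeneous n := by
    have h := (isHomogeneous_homogenize (n := n) f).aeval v (n := 1) fun i => by
      fin_cases i <;>
        exact (MvPolynomial.isHomogeneous_C_mul_X _ _).add (MvPolynomial.isHomogeneous_C_mul_X _ _)
    rwa [one_mul] at h
  set g : ℤ[X] := aeval ![X, 1] G with hg
  have hhom : g.homogenize n = G := homogenize_eq_of_isHomogeneous hGh rfl
  refine ⟨g, ?_, ⟨a, b, c, d, hdet, hhom⟩, fun x y => ?_⟩
  · rw [hg, MvPolynomial.aeval_def, MvPolynomial.eval₂_eq']
    refine natDegree_sum_le_of_forall_le _ _ fun m hm => ?_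
    have h := hGh.degree_eq_sum_deg_support hm
    rw [sum_subset (subset_univ _) (fun i _ hi => by simpa using hi), Fin.sum_univ_two] at h
    rw [Fin.prod_univ_two]
    simp only [Matrix.cons_val_zero, Matrix.cons_val_one, one_pow, mul_one]
    exact (natDegree_C_mul_le _ _).trans (by rw [natDegree_X_pow]; omega)
  · rw [binEval, hhom, hG, MvPolynomial.comp_aeval_apply, binEval]
    congr 2
    funext i
    fin_cases i <;> simp [hv]

/-- The determinant of two linear forms. -/
def cross (p q : R × R) : R := p.1 * q.2 - q.1 * p.2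

theorem cross_self (p : R × R) : cross p p = 0 := sub_self _

theorem cross_comm (p q : R × R) : cross p q = -cross q p := by simp [cross]

theorem norm_cross_comm (p q : ℂ × ℂ) : ‖cross p q‖ = ‖cross q p‖ := by
  rw [cross_comm, norm_neg]

/-- `l` are linear factors of the form of degree `n` of `f`. -/
def Factors (n : ℕ) (f : ℤ[X]) (l : Fin n → ℂ × ℂ) : Prop :=
  ∀ x y : ℂ, binEval n f x y = ∏ i, ((l i).1 * x + (l i).2 * y)

/-- The product of all determinants, `± D`. -/
def crossProd {R : Type*} [CommRing R] {n : ℕ} (l : Fin n → R × R) : R :=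
  ∏ i, ∏ j ∈ univ.erase i, cross (l i) (l j)

theorem cross_ne_zero_of_crossProd [IsDomain R] {l : Fin n → R × R} (h : crossProd l ≠ 0)
    {i j : Fin n} (hij : i ≠ j) : cross (l i) (l j) ≠ 0 :=
  prod_ne_zero_iff.1 (prod_ne_zero_iff.1 h i (mem_univ i)) j (mem_erase.2 ⟨hij.symm, mem_univ j⟩)

theorem Factors.map_eq_prod {f : ℤ[X]} {l : Fin n → ℂ × ℂ} (h : Factors n f l)
    (hf : f.natDegree ≤ n) :
    f.map (Int.castRingHom ℂ) = ∏ i, (C (l i).1 * X + C (l i).2) := by
  refine Polynomial.funext fun x => ?_
  have h1 := h x 1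
  rw [binEval_one hf] at h1
  simp only [mul_one] at h1
  simp only [eval_prod, eval_add, eval_mul, eval_C, eval_X]
  rw [eval_map, ← h1, Polynomial.aeval_def]
  rfl

/-- The factors after a substitution. -/
def substFactors (l : Fin n → R × R) (a b c d : ℤ) (i : Fin n) : R × R :=
  ((l i).1 * a + (l i).2 * c, (l i).1 * b + (l i).2 * d)

theorem Factors.subst {f g : ℤ[X]} {l : Fin n → ℂ × ℂ} (h : Factors n f l) {a b c d : ℤ}
    (hg : ∀ x y : ℂ, binEval n g x y = binEval n f (a * x + b * y) (c * x + d * y)) :
    Factors n g (substFactors l a b c d) := fun x y => by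
  rw [hg, h]
  exact prod_congr rfl fun i _ => by simp only [substFactors]; ring

theorem cross_substFactors (l : Fin n → R × R) {a b c d : ℤ} (hdet : a * d - b * c = 1)
    (i j : Fin n) :
    cross (substFactors l a b c d i) (substFactors l a b c d j) = cross (l i) (l j) := by
  have h : (a : R) * d - b * c = 1 := by exact_mod_cast congrArg (fun z : ℤ => (z : R)) hdet
  simp only [cross, substFactors]
  linear_combination ((l i).1 * (l j).2 - (l j).1 * (l i).2) * h

/-- A real form has its factors permuted by conjugation. -/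
theorem Factors.exists_conj {f : ℤ[X]} {l : Fin n → ℂ × ℂ} (h : Factors n f l)
    (hl : ∀ i, l i ≠ 0) (i : Fin n) :
    ∃ (j : Fin n) (c : ℂ), (starRingEnd ℂ (l i).1, starRingEnd ℂ (l i).2) = c • l j := by
  classical
  set conj := starRingEnd ℂ
  have h0 : binEval n f (-(l i).2) (l i).1 = 0 := by
    rw [h]
    exact prod_eq_zero (mem_univ i) (by ring)
  have h1 : binEval n f (-conj (l i).2) (conj (l i).1) = 0 := by
    have e : ∀ x y : ℂ, conj (binEval n f x y) = binEval n f (conj x) (conj y) := fun x y => by
      rw [binEval, binEval, show aeval ![x, y] (f.homogenize n) =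
        MvPolynomial.eval₂Hom (Int.castRingHom ℂ) ![x, y] (f.homogenize n) from rfl,
        MvPolynomial.map_eval₂Hom]
      rw [RingHom.ext_int (conj.comp (Int.castRingHom ℂ)) (Int.castRingHom ℂ)]
      have : (fun k => conj (![x, y] k)) = ![conj x, conj y] := by
        funext k
        fin_cases k <;> rfl
      rw [this]
      rfl
    have := congrArg conj h0
    rwa [e, map_neg, map_zero] at this
  rw [h, prod_eq_zero_iff] at h1
  obtain ⟨j, -, hj⟩ := h1
  have hj' : conj (l i).1 * (l j).2 = (l j).1 * conj (l i).2 := by linear_combination hj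
  rcases ne_or_eq (l j).1 0 with h1 | h1
  · refine ⟨j, conj (l i).1 / (l j).1, Prod.ext (by simp [div_mul_cancel₀ _ h1]) ?_⟩
    simp only [Prod.smul_snd, smul_eq_mul]
    field_simp
    linear_combination -hj'
  · have h2 : (l j).2 ≠ 0 := fun h2 => hl j (Prod.ext h1 h2)
    have h3 : conj (l i).1 = 0 := (mul_eq_zero.1 (by rw [hj', h1, zero_mul])).resolve_right h2
    exact ⟨j, conj (l i).2 / (l j).2, Prod.ext (by simp [h1, h3])
      (by simp [div_mul_cancel₀ _ h2])⟩

end FA.BirchMerriman

end
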