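import Fermat.Agent.BirchMerriman.Basic
import Mathlib.RingTheory.Polynomial.Resultant.Basic

/-!
# The discriminant of a binary form

For `f` of degree `n` it is `discr f`, for `f` of degree `n - 1`, with a root at infinity, it is
`lc ² discr f`; in absolute value it is the product of all determinants of linear factors.
-/

set_option autoImplicit false

noncomputable section

namespace FA.BirchMerriman

open Finset Polynomial

/-- The discriminant of the form of degree `n`; forms with a double root at infinity get zero. -/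
def formDiscr (n : ℕ) (f : ℤ[X]) : ℤ :=
  if f.natDegree = n then f.discr
  else if f.natDegree + 1 = n then f.leadingCoeff ^ 2 * f.discr else 0

theorem factors_of_map_eq_prod {n : ℕ} {f : ℤ[X]} {l : Fin n → ℂ × ℂ}
    (h : f.map (Int.castRingHom ℂ) = ∏ i, (C (l i).1 * X + C (l i).2)) : Factors n f l := by
  intro x y
  have h1 : (f.map (Int.castRingHom ℂ)).homogenize n =
      ∏ i, (MvPolynomial.C (l i).1 * MvPolynomial.X 0 +
        MvPolynomial.C (l i).2 * MvPolynomial.X 1) := by
    have h2 := homogenize_finsetProd (s := (univ : Finset (Fin n)))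
      (p := fun i => C (l i).1 * X + C (l i).2) (n := fun _ => 1) fun i _ => natDegree_linear_le
    simp only [sum_const, card_univ, Fintype.card_fin, smul_eq_mul, mul_one] at h2
    rw [h, h2]
    refine prod_congr rfl fun i _ => ?_
    rw [homogenize_add, homogenize_C_mul, homogenize_X one_ne_zero, homogenize_C]
    simp
  rw [binEval, show MvPolynomial.aeval ![x, y] (f.homogenize n) =
    MvPolynomial.eval ![x, y] ((f.map (Int.castRingHom ℂ)).homogenize n) by
    rw [homogenize_map, MvPolynomial.eval_map]; rfl, h1, map_prod]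
  exact prod_congr rfl fun i _ => by simp

theorem eval_derivative_root {K : Type*} [Field K] [DecidableEq K] {F : K[X]} (hF : F.Splits)
    {x : K} (hx : x ∈ F.roots) :
    F.derivative.eval x = F.leadingCoeff * ((F.roots.erase x).map (x - ·)).prod := by
  rw [← eval_multiset_prod_X_sub_C_derivative hx]
  conv_lhs => rw [hF.eq_prod_roots]
  rw [derivative_C_mul, eval_C_mul]

/-- Factors of a polynomial of degree `n` with nonzero discriminant. -/
theorem exists_factors_top {f : ℤ[X]} {n : ℕ} (hn : 0 < n) (hd : f.natDegree = n)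
    (h0 : f.discr ≠ 0) :
    ∃ l : Fin n → ℂ × ℂ, f.map (Int.castRingHom ℂ) = ∏ i, (C (l i).1 * X + C (l i).2) ∧
      ‖crossProd l‖ = |(f.discr : ℝ)| ∧ ∏ i, ‖(l i).1‖ = |(f.leadingCoeff : ℝ)| := by
  classical
  subst hd
  have hf0 : f ≠ 0 := fun h => by rw [h, natDegree_zero] at hn; omega
  set φ := Int.castRingHom ℂ
  set F := f.map φ
  have hdeg : F.natDegree = f.natDegree := natDegree_map_eq_of_injective Int.cast_injective f
  have hlc : F.leadingCoeff = (f.leadingCoeff : ℂ) :=
    leadingCoeff_map_of_injective Int.cast_injective f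
  have hlc0 : (f.leadingCoeff : ℂ) ≠ 0 := Int.cast_ne_zero.2 (leadingCoeff_ne_zero.2 hf0)
  have hres : (f.leadingCoeff : ℂ) ^ (f.natDegree - 1) * (F.roots.map F.derivative.eval).prod =
      ((-1 : ℤ) ^ (f.natDegree * (f.natDegree - 1) / 2) * f.leadingCoeff * f.discr : ℤ) := by
    have h := resultant_eq_prod_eval F F.derivative (f.natDegree - 1)
      ((natDegree_derivative_le _).trans (by rw [hdeg])) (IsAlgClosed.splits _)
    rw [hlc, hdeg, derivative_map, resultant_map_map,
      resultant_deriv (natDegree_pos_iff_degree_pos.1 hn), eq_intCast] at h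
    rw [derivative_map, ← h]
  have hres0 : (F.roots.map F.derivative.eval).prod ≠ 0 := fun h => by
    rw [h, mul_zero, eq_comm, Int.cast_eq_zero, mul_eq_zero, mul_eq_zero] at hres
    exact hres.elim (fun h' => h'.elim (fun h'' => pow_ne_zero _ (by norm_num) h'')
      fun h'' => leadingCoeff_ne_zero.2 hf0 h'') h0
  have hnd : F.roots.Nodup := by
    rw [Multiset.nodup_iff_count_le_one]
    intro x
    by_contra! hx
    have hmem : x ∈ F.roots := Multiset.count_pos.1 (by omega)
    refine hres0 (Multiset.prod_eq_zero (Multiset.mem_map.2 ⟨x, hmem, ?_⟩))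
    rw [eval_derivative_root (IsAlgClosed.splits F) hmem]
    refine mul_eq_zero_of_right _ (Multiset.prod_eq_zero (Multiset.mem_map.2 ⟨x, ?_, sub_self x⟩))
    rw [← Multiset.count_pos, Multiset.count_erase_self]
    exact Nat.sub_pos_of_lt hx
  set R := F.roots.toFinset
  have hcard : R.card = f.natDegree := by
    rw [Multiset.toFinset_card_of_nodup hnd, ← (IsAlgClosed.splits F).natDegree_eq_card_roots,
      hdeg]
  set e : Fin f.natDegree ≃ R := (finCongr hcard.symm).trans R.equivFin.symm
  have hsum : ∀ {β : Type} [CommMonoid β] (g : ℂ → β),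
      (F.roots.map g).prod = ∏ i, g (e i) := fun g => by
    rw [show (F.roots.map g).prod = ∏ x ∈ R, g x by
      rw [Finset.prod_eq_multiset_prod, Multiset.toFinset_val, hnd.dedup],
      Equiv.prod_comp e (fun y : R => g y), Finset.prod_coe_sort R g]
  obtain ⟨w, hw⟩ := IsAlgClosed.exists_pow_nat_eq (f.leadingCoeff : ℂ) hn
  refine ⟨fun i => (w, -(w * (e i : ℂ))), ?_, ?_, ?_⟩
  · show F = _
    conv_lhs => rw [(IsAlgClosed.splits F).eq_prod_roots]
    rw [hlc, ← hw, hsum, C_pow,
      show C w ^ f.natDegree = ∏ _i : Fin f.natDegree, C w by simp, ← prod_mul_distrib]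
    refine prod_congr rfl fun i _ => ?_
    rw [map_neg, map_mul]
    ring
  · have hder : ∀ i, F.derivative.eval (e i : ℂ) =
        (f.leadingCoeff : ℂ) * ∏ j ∈ univ.erase i, ((e i : ℂ) - e j) := fun i => by
      rw [eval_derivative_root (IsAlgClosed.splits F) (Multiset.mem_toFinset.1 (e i).2), hlc,
        ← Finset.prod_mk _ (hnd.erase _)]
      congr 1
      refine prod_bij' (fun y hy => e.symm ⟨y, Multiset.mem_toFinset.2
        ((Multiset.Nodup.mem_erase_iff hnd).1 hy).2⟩) (fun j _ => (e j : ℂ))
        (fun y hy => mem_erase.2 ⟨fun h => ((Multiset.Nodup.mem_erase_iff hnd).1 hy).1 (by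
          rw [← h, Equiv.apply_symm_apply]), mem_univ _⟩)
        (fun j hj => (Multiset.Nodup.mem_erase_iff hnd).2
          ⟨fun h => (mem_erase.1 hj).1 (e.injective (Subtype.ext h)),
            Multiset.mem_toFinset.1 (e j).2⟩)
        (fun y hy => by simp) (fun j _ => by simp) (fun y hy => by simp)
    have hn1 : f.natDegree * (2 * (f.natDegree - 1)) =
        ∑ _i : Fin f.natDegree, 2 * (f.natDegree - 1) := by simp
    have hcp : crossProd (fun i => ((w, -(w * (e i : ℂ))) : ℂ × ℂ)) =
        (f.leadingCoeff : ℂ) ^ (2 * (f.natDegree - 1)) *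
          ∏ i, ∏ j ∈ univ.erase i, ((e i : ℂ) - e j) := by
      have h1 : ∀ i j, cross ((w, -(w * (e i : ℂ))) : ℂ × ℂ) (w, -(w * (e j : ℂ))) =
          w ^ 2 * ((e i : ℂ) - e j) := fun i j => by simp only [cross]; ring
      simp only [crossProd, h1, prod_mul_distrib, prod_const, card_erase_of_mem (mem_univ _),
        card_univ, Fintype.card_fin]
      rw [← hw, ← pow_mul, ← pow_mul, ← pow_mul]
      congr 2
      ring
    rw [hsum, prod_congr rfl fun i _ => hder i, prod_mul_distrib, prod_const, card_univ,
      Fintype.card_fin, ← mul_assoc, ← pow_add, show f.natDegree - 1 + f.natDegree =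
        2 * (f.natDegree - 1) + 1 by omega, pow_succ', mul_assoc, ← hcp] at hres
    push_cast at hres
    rw [mul_comm ((-1 : ℂ) ^ _) (f.leadingCoeff : ℂ), mul_assoc] at hres
    rw [mul_left_cancel₀ hlc0 hres]
    simp [Complex.norm_intCast]
  · simp only [prod_const, card_univ, Fintype.card_fin]
    rw [← norm_pow, hw, Complex.norm_intCast]

theorem crossProd_cons {R : Type*} [CommRing R] {m : ℕ} (p : R × R) (l : Fin m → R × R) :
    crossProd (Fin.cons p l) =
      (∏ i, cross p (l i)) * ((∏ i, cross (l i) p) * crossProd l) := by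
  classical
  rw [crossProd, Fin.prod_univ_succ]
  congr 1
  · rw [show (univ : Finset (Fin (m + 1))).erase 0 = univ.image Fin.succ by
      ext i
      simp, prod_image (Fin.succ_injective _).injOn]
    simp
  · rw [crossProd, ← prod_mul_distrib]
    refine prod_congr rfl fun i _ => ?_
    rw [show (univ : Finset (Fin (m + 1))).erase i.succ =
        insert 0 ((univ.erase i).image Fin.succ) by
      ext j
      refine Fin.cases ?_ (fun j => ?_) j <;> simp [eq_comm, Fin.succ_ne_zero],
      prod_insert (by simp), prod_image (Fin.succ_injective _).injOn]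
    simp

/-- Linear factors with the discriminant as product of the determinants. -/
theorem exists_factors {f : ℤ[X]} {n : ℕ} (hn : 2 ≤ n) (h0 : formDiscr n f ≠ 0) :
    f.natDegree ≤ n ∧ ∃ l : Fin n → ℂ × ℂ, Factors n f l ∧
      ‖crossProd l‖ = |(formDiscr n f : ℝ)| := by
  classical
  by_cases h1 : f.natDegree = n
  · rw [formDiscr, if_pos h1] at h0 ⊢
    obtain ⟨l, hl, hd, -⟩ := exists_factors_top (by omega) h1 h0
    exact ⟨h1.le, l, factors_of_map_eq_prod hl, hd⟩
  by_cases h2 : f.natDegree + 1 = n
  · rw [formDiscr, if_neg h1, if_pos h2] at h0 ⊢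
    obtain ⟨m, rfl⟩ : ∃ m, n = m + 1 := ⟨n - 1, by omega⟩
    obtain ⟨l, hl, hd, hlc⟩ := exists_factors_top (n := m) (by omega) (by omega)
      (right_ne_zero_of_mul h0)
    refine ⟨by omega, Fin.cons (0, 1) l, factors_of_map_eq_prod ?_, ?_⟩
    · rw [hl, Fin.prod_univ_succ]
      simp
    · have h3 : crossProd (Fin.cons ((0, 1) : ℂ × ℂ) l) =
          (∏ i, cross ((0, 1) : ℂ × ℂ) (l i)) * ((∏ i, cross (l i) ((0, 1) : ℂ × ℂ)) *
            crossProd l) := crossProd_cons _ _
      rw [h3, norm_mul, norm_mul, norm_prod, norm_prod, hd]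
      simp only [cross, zero_mul, zero_sub, mul_one, sub_zero, norm_neg]
      rw [hlc]
      push_cast
      rw [abs_mul, abs_pow]
      ring
  · rw [formDiscr, if_neg h1, if_neg h2] at h0
    exact absurd rfl h0

end FA.BirchMerriman

end
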