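import Fermat.Agent.BirchMerriman.Basic
import Mathlib.Analysis.Real.Sqrt
import Mathlib.RingTheory.Int.Basic

/-!
# Reduction of binary forms with bounded cross ratios

If the cross ratios of the linear factors are bounded, there are weights `u i` with
`|Δ i j| ≍ u i u j`; the positive form `∑ |l i| ² / u i ²` has bounded determinant, and at a reduced
basis the integrality of the form bounds all its coefficients.
-/

set_option autoImplicit false

noncomputable section

namespace FA.BirchMerriman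

open Finset Polynomial

variable {n : ℕ}

/-- `Δ i j Δ k m` is at most `C` times `Δ i k Δ j m` in absolute value. -/
def CrossBounded (C : ℝ) (l : Fin n → ℂ × ℂ) : Prop :=
  ∀ i j k m : Fin n, i ≠ j → i ≠ k → i ≠ m → j ≠ k → j ≠ m → k ≠ m →
    ‖cross (l i) (l j)‖ * ‖cross (l k) (l m)‖ ≤ C * (‖cross (l i) (l k)‖ * ‖cross (l j) (l m)‖)

/-- The absolute determinants are comparable with products of weights. -/
def Balanced (K : ℝ) (l : Fin n → ℂ × ℂ) (u : Fin n → ℝ) : Prop :=
  (∀ i, 0 < u i) ∧ ∏ i, u i ≤ K ∧ ∀ i j, i ≠ j →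
    u i * u j ≤ K * ‖cross (l i) (l j)‖ ∧ ‖cross (l i) (l j)‖ ≤ K * (u i * u j)

/-- The balancing constant. -/
def balanceConst (n : ℕ) (C M : ℝ) : ℝ :=
  max (max 1 C ^ 2) ((max 1 C ^ 2) ^ (n * (n - 1)) * M)

theorem one_le_balanceConst (n : ℕ) (C M : ℝ) : 1 ≤ balanceConst n C M :=
  le_max_of_le_left (one_le_pow₀ (le_max_left _ _))

theorem exists_balanced_of_bounded (hn : 3 ≤ n) {C M : ℝ} {l : Fin n → ℂ × ℂ}
    (hl : crossProd l ≠ 0) (hM : ‖crossProd l‖ ≤ M) (hC : CrossBounded C l) :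
    ∃ u, Balanced (balanceConst n C M) l u := by
  classical
  rw [balanceConst]
  set K₀ := max 1 C ^ 2 with hK₀
  have hK₀1 : 1 ≤ K₀ := one_le_pow₀ (le_max_left _ _)
  set T := max 1 C with hT
  set z : Fin n := ⟨0, by omega⟩ with hz
  set o : Fin n := ⟨1, by omega⟩ with ho
  set t : Fin n := ⟨2, by omega⟩ with ht
  have hzo : z ≠ o := by simp [hz, ho, Fin.ext_iff]
  have hzt : z ≠ t := by simp [hz, ht, Fin.ext_iff]
  have hot : o ≠ t := by simp [ho, ht, Fin.ext_iff]
  set N : Fin n → Fin n → ℝ := fun i j => ‖cross (l i) (l j)‖ with hN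
  have hsymm : ∀ i j, N i j = N j i := fun i j => norm_cross_comm _ _
  have hpos : ∀ i j, i ≠ j → 0 < N i j := fun i j hij =>
    norm_pos_iff.2 (cross_ne_zero_of_crossProd hl hij)
  have hnn : ∀ i j, 0 ≤ N i j := fun i j => norm_nonneg _
  have hext : ∀ i j k m, i ≠ j → i ≠ k → j ≠ m → k ≠ m →
      N i j * N k m ≤ T * (N i k * N j m) := fun i j k m hij hik hjm hkm => by
    have h0 : 0 ≤ N i k * N j m := mul_nonneg (hnn _ _) (hnn _ _)
    by_cases him : i = m
    · subst him
      rw [hsymm k i, hsymm j i, mul_comm (N i j)]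
      exact le_mul_of_one_le_left (mul_nonneg (hnn _ _) (hnn _ _)) (le_max_left _ _)
    by_cases hjk : j = k
    · subst hjk
      exact le_mul_of_one_le_left h0 (le_max_left _ _)
    exact (hC i j k m hij hik him hjk hjm hkm).trans
      (mul_le_mul_of_nonneg_right (le_max_right _ _) h0)
  set s := N z o * N z t / N o t with hs
  have hs0 : 0 < s := div_pos (mul_pos (hpos _ _ hzo) (hpos _ _ hzt)) (hpos _ _ hot)
  set u : Fin n → ℝ := fun i => if i = z then Real.sqrt s else N z i / Real.sqrt s with hu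
  have hsq : 0 < Real.sqrt s := Real.sqrt_pos.2 hs0
  have hu0 : ∀ i, 0 < u i := fun i => by
    by_cases h : i = z
    · simp only [hu, h, if_true]
      exact hsq
    · simp only [hu, if_neg h]
      exact div_pos (hpos _ _ (Ne.symm h)) hsq
  have key : ∀ i j, i ≠ z → j ≠ z → i ≠ j → j ≠ o →
      u i * u j ≤ K₀ * N i j ∧ N i j ≤ K₀ * (u i * u j) := by
    intro i j hi hj hij hjo
    have e : u i * u j = N z i * N z j * N o t / (N z o * N z t) := by
      simp only [hu, if_neg hi, if_neg hj]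
      rw [div_mul_div_comm, Real.mul_self_sqrt hs0.le, hs]
      field_simp
    have hd : 0 < N z o * N z t := mul_pos (hpos _ _ hzo) (hpos _ _ hzt)
    have hjo' : 0 < N j o := hpos _ _ hjo
    rw [e]
    constructor
    · rw [div_le_iff₀ hd]
      have h1 := hext i z j o hi hij hzo hjo
      have h2 := hext j z o t hj hjo hzt hot
      rw [hsymm i z, hsymm z o] at h1
      rw [hsymm j z] at h2
      have h3 : (N z i * N z j * N o t) * N j o ≤ (K₀ * N i j * (N z o * N z t)) * N j o := by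
        calc (N z i * N z j * N o t) * N j o = (N z i * N j o) * (N z j * N o t) := by ring
          _ ≤ (T * (N i j * N o z)) * (T * (N j o * N z t)) := by
            refine mul_le_mul h1 h2 (mul_nonneg (hnn _ _) (hnn _ _)) ?_
            exact mul_nonneg (zero_le_one.trans (le_max_left _ _)) (mul_nonneg (hnn _ _) (hnn _ _))
          _ = (K₀ * N i j * (N z o * N z t)) * N j o := by rw [hK₀, hsymm o z]; ring
      exact le_of_mul_le_mul_right h3 hjo'
    · rw [mul_div_assoc', le_div_iff₀ hd]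
      have h1 := hext i j z o hij hi hjo hzo
      have h2 := hext j o z t hjo hj hot hzt
      rw [hsymm i z] at h1
      rw [hsymm j z] at h2
      have h3 : N i j * (N z o * N z t) * N j o ≤ K₀ * (N z i * N z j * N o t) * N j o := by
        calc N i j * (N z o * N z t) * N j o = (N i j * N z o) * (N j o * N z t) := by ring
          _ ≤ (T * (N z i * N j o)) * (T * (N z j * N o t)) := by
            refine mul_le_mul h1 h2 (mul_nonneg (hnn _ _) (hnn _ _)) ?_
            exact mul_nonneg (zero_le_one.trans (le_max_left _ _)) (mul_nonneg (hnn _ _) (hnn _ _))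
          _ = K₀ * (N z i * N z j * N o t) * N j o := by rw [hK₀]; ring
      exact le_of_mul_le_mul_right h3 hjo'
  have hbal : ∀ i j, i ≠ j → u i * u j ≤ K₀ * N i j ∧ N i j ≤ K₀ * (u i * u j) := by
    intro i j hij
    have h0 : ∀ j, j ≠ z → u z * u j = N z j := fun j hj => by
      simp only [hu, if_pos, if_neg hj]
      field_simp
    by_cases hi : i = z
    · subst hi
      rw [h0 j (Ne.symm hij)]
      exact ⟨le_mul_of_one_le_left (hnn _ _) hK₀1, le_mul_of_one_le_left (hnn _ _) hK₀1⟩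
    by_cases hj : j = z
    · subst hj
      rw [mul_comm (u i), h0 i hi, hsymm i z]
      exact ⟨le_mul_of_one_le_left (hnn _ _) hK₀1, le_mul_of_one_le_left (hnn _ _) hK₀1⟩
    by_cases hjo : j = o
    · have := key j i hj hi (Ne.symm hij) (fun h => hij (h.trans hjo.symm))
      rwa [mul_comm (u j), hsymm j i] at this
    · exact key i j hi hj hij hjo
  set U := ∏ i, u i
  have hU0 : 0 < U := prod_pos fun i _ => hu0 i
  have hUle : U ^ (2 * (n - 1)) ≤ K₀ ^ (n * (n - 1)) * M := by
    have e : ∏ i, ∏ j ∈ univ.erase i, u i * u j = U ^ (2 * (n - 1)) := by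
      simp only [prod_mul_distrib, prod_const, card_erase_of_mem (mem_univ _), card_univ,
        Fintype.card_fin, prod_pow]
      have h2 : ∀ i, ∏ j ∈ univ.erase i, u j = U / u i := fun i => by
        rw [eq_div_iff (hu0 i).ne', prod_erase_mul _ _ (mem_univ i)]
      simp only [h2, prod_div_distrib, prod_const, card_univ, Fintype.card_fin]
      rw [mul_div_assoc', div_eq_iff hU0.ne', ← pow_add, ← pow_succ]
      congr 1
      omega
    rw [← e]
    calc _ ≤ ∏ i, ∏ j ∈ univ.erase i, K₀ * N i j :=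
          prod_le_prod (fun i _ => prod_nonneg fun j _ => (mul_pos (hu0 i) (hu0 j)).le)
            fun i _ => prod_le_prod (fun j _ => (mul_pos (hu0 i) (hu0 j)).le) fun j hj =>
              (hbal i j (ne_of_mem_erase hj).symm).1
      _ = K₀ ^ (n * (n - 1)) * ‖crossProd l‖ := by
        simp [hN, crossProd, norm_prod, prod_mul_distrib, card_erase_of_mem, pow_mul,
          pow_right_comm]
      _ ≤ _ := mul_le_mul_of_nonneg_left hM (by positivity)
  refine ⟨u, hu0, ?_, fun i j hij => ⟨(hbal i j hij).1.trans ?_, (hbal i j hij).2.trans ?_⟩⟩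
  · rcases le_total U 1 with h | h
    · exact h.trans (le_max_of_le_left hK₀1)
    · exact le_max_of_le_right ((le_self_pow₀ h (by omega)).trans hUle)
  · exact mul_le_mul_of_nonneg_right (le_max_left _ _) (norm_nonneg _)
  · exact mul_le_mul_of_nonneg_right (le_max_left _ _) (mul_pos (hu0 i) (hu0 j)).le

theorem exists_balanced (hn : 3 ≤ n) (C M : ℝ) :
    ∃ K : ℝ, 1 ≤ K ∧ ∀ l : Fin n → ℂ × ℂ, crossProd l ≠ 0 → ‖crossProd l‖ ≤ M →
      CrossBounded C l → ∃ u, Balanced K l u :=
  ⟨balanceConst n C M, one_le_balanceConst n C M, fun _ hl hM hC =>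
    exists_balanced_of_bounded hn hl hM hC⟩

/-- Conjugation costs only a bounded power of the balancing constant. -/
theorem abs_im_le (hn : 3 ≤ n) {K : ℝ} (hK : 1 ≤ K) {f : ℤ[X]} {l : Fin n → ℂ × ℂ}
    {u : Fin n → ℝ} (hf : Factors n f l) (hl : crossProd l ≠ 0) (hb : Balanced K l u) (i : Fin n) :
    |((starRingEnd ℂ (l i).1) * (l i).2).im| ≤ K ^ 4 * u i ^ 2 := by
  classical
  obtain ⟨hu0, -, hb⟩ := hb
  have hne : ∀ i j, i ≠ j → cross (l i) (l j) ≠ 0 := fun i j h => cross_ne_zero_of_crossProd hl h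
  obtain ⟨p, hp⟩ := Fintype.exists_ne_of_one_lt_card (by rw [Fintype.card_fin]; omega) i
  have hl0 : ∀ i, l i ≠ 0 := fun k hk => by
    obtain ⟨m, hm⟩ := Fintype.exists_ne_of_one_lt_card (by rw [Fintype.card_fin]; omega) k
    exact hne k m hm.symm (by simp [cross, hk])
  choose σ c hc using hf.exists_conj hl0
  have hcross : ∀ a b, ‖cross (l a) (l b)‖ = ‖c a‖ * ‖c b‖ * ‖cross (l (σ a)) (l (σ b))‖ :=
    fun a b => by
      have e : starRingEnd ℂ (cross (l a) (l b)) =
          c a * c b * cross (l (σ a)) (l (σ b)) := by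
        have ha := hc a
        have hb' := hc b
        simp only [Prod.ext_iff, Prod.smul_fst, Prod.smul_snd, smul_eq_mul] at ha hb'
        simp only [cross, map_sub, map_mul, ha.1, ha.2, hb'.1, hb'.2]
        ring
      rw [← Complex.norm_conj, e, norm_mul, norm_mul]
  set e : Fin n → ℝ := fun a => ‖c a‖ * u (σ a) / u a with he
  have he0 : ∀ a, 0 ≤ e a := fun a =>
    div_nonneg (mul_nonneg (norm_nonneg _) (hu0 _).le) (hu0 _).le
  have hee : ∀ a b, a ≠ b → e a * e b ≤ K ^ 2 ∧ 1 ≤ K ^ 2 * (e a * e b) := fun a b hab => by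
    have hσ : σ a ≠ σ b := fun h => hne a b hab (norm_eq_zero.1 (by
      rw [hcross, h, cross_self, norm_zero, mul_zero]))
    obtain ⟨h1, h2⟩ := hb a b hab
    obtain ⟨h3, h4⟩ := hb _ _ hσ
    have e1 : e a * e b = ‖c a‖ * ‖c b‖ * (u (σ a) * u (σ b)) / (u a * u b) := by
      simp only [he]
      rw [div_mul_div_comm]
      ring
    have hpos : 0 < u a * u b := mul_pos (hu0 a) (hu0 b)
    have hcc : 0 ≤ ‖c a‖ * ‖c b‖ := by positivity
    rw [e1, div_le_iff₀ hpos, mul_div_assoc', le_div_iff₀ hpos, one_mul]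
    rw [hcross] at h1 h2
    constructor
    · calc ‖c a‖ * ‖c b‖ * (u (σ a) * u (σ b))
          ≤ ‖c a‖ * ‖c b‖ * (K * ‖cross (l (σ a)) (l (σ b))‖) := mul_le_mul_of_nonneg_left h3 hcc
        _ ≤ K * (K * (u a * u b)) := by
          rw [mul_left_comm]
          exact mul_le_mul_of_nonneg_left h2 (by linarith)
        _ = _ := by ring
    · calc u a * u b ≤ K * (‖c a‖ * ‖c b‖ * ‖cross (l (σ a)) (l (σ b))‖) := h1
        _ ≤ K * (‖c a‖ * ‖c b‖ * (K * (u (σ a) * u (σ b)))) :=
          mul_le_mul_of_nonneg_left (mul_le_mul_of_nonneg_left h4 hcc) (by linarith)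
        _ = _ := by ring
  obtain ⟨q, hqi, hqp⟩ : ∃ q, q ≠ i ∧ q ≠ p := by
    by_contra! h
    have := card_le_card (s := univ) (t := {i, p}) fun q _ => by
      rw [mem_insert, mem_singleton]
      by_cases hq : q = i
      · exact Or.inl hq
      · exact Or.inr (h q hq)
    rw [card_univ, Fintype.card_fin] at this
    have := card_le_two (a := i) (b := p)
    omega
  have hei : e i ≤ K ^ 3 := by
    refine (pow_le_pow_iff_left₀ (he0 i) (by positivity) two_ne_zero).1 ?_
    calc e i ^ 2 = e i ^ 2 * 1 := (mul_one _).symm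
      _ ≤ e i ^ 2 * (K ^ 2 * (e p * e q)) :=
        mul_le_mul_of_nonneg_left (hee p q hqp.symm).2 (sq_nonneg _)
      _ = K ^ 2 * ((e i * e p) * (e i * e q)) := by ring
      _ ≤ K ^ 2 * (K ^ 2 * K ^ 2) := mul_le_mul_of_nonneg_left (mul_le_mul (hee i p hp.symm).1
          (hee i q hqi.symm).1 (mul_nonneg (he0 _) (he0 _)) (by positivity)) (by positivity)
      _ = (K ^ 3) ^ 2 := by ring
  have hci := hc i
  simp only [Prod.ext_iff, Prod.smul_fst, Prod.smul_snd, smul_eq_mul] at hci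
  set w := (starRingEnd ℂ (l i).1) * (l i).2 with hw
  have h2 : c i * cross (l (σ i)) (l i) = w - starRingEnd ℂ w := by
    rw [hw, map_mul, Complex.conj_conj, hci.1, hci.2, cross]
    ring
  have h3 : 2 * |w.im| = ‖c i‖ * ‖cross (l (σ i)) (l i)‖ := by
    rw [← norm_mul, h2, Complex.sub_conj, norm_mul, Complex.norm_I, mul_one, Complex.norm_real,
      Real.norm_eq_abs, abs_mul, abs_two]
  rcases eq_or_ne (σ i) i with h | h
  · rw [h, cross_self, norm_zero, mul_zero] at h3
    nlinarith [mul_nonneg (pow_nonneg (zero_le_one.trans hK) 4) (sq_nonneg (u i)), abs_nonneg w.im]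
  · have h4 : ‖c i‖ * ‖cross (l (σ i)) (l i)‖ ≤ K ^ 4 * u i ^ 2 := by
      calc ‖c i‖ * ‖cross (l (σ i)) (l i)‖ ≤ ‖c i‖ * (K * (u (σ i) * u i)) :=
            mul_le_mul_of_nonneg_left (hb _ _ h).2 (norm_nonneg _)
        _ = K * e i * u i ^ 2 := by
          simp only [he]
          field_simp [(hu0 i).ne']
        _ ≤ K * K ^ 3 * u i ^ 2 := by gcongr
        _ = _ := by ring
    linarith [abs_nonneg w.im]

/-- The determinant of the positive form `∑ |m i| ²`. -/
theorem gram_le {K : ℝ} (hK : 1 ≤ K) {m : Fin n → ℂ × ℂ}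
    (hcr : ∀ i j, ‖cross (m i) (m j)‖ ≤ K)
    (him : ∀ i, |((starRingEnd ℂ (m i).1) * (m i).2).im| ≤ K ^ 4) :
    (∑ i, Complex.normSq (m i).1) * (∑ i, Complex.normSq (m i).2) -
      (∑ i, ((starRingEnd ℂ (m i).1) * (m i).2).re) ^ 2 ≤ 3 * (n : ℝ) ^ 2 * K ^ 8 := by
  set A := fun i => Complex.normSq (m i).1
  set B := fun i => Complex.normSq (m i).2
  set P := fun i => (starRingEnd ℂ (m i).1) * (m i).2
  have hterm : ∀ i j, A i * B j + A j * B i - 2 * ((P i).re * (P j).re) =
      Complex.normSq (cross (m i) (m j)) + 2 * ((P i).im * (P j).im) := fun i j => by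
    simp only [A, B, P, cross, Complex.normSq_apply, Complex.mul_re, Complex.mul_im,
      Complex.conj_re, Complex.conj_im, Complex.sub_re, Complex.sub_im]
    ring
  have h2 : 2 * ((∑ i, A i) * (∑ i, B i) - (∑ i, (P i).re) ^ 2) =
      ∑ i, ∑ j, (A i * B j + A j * B i - 2 * ((P i).re * (P j).re)) := by
    simp only [sum_sub_distrib, sum_add_distrib, ← mul_sum, ← sum_mul]
    rw [mul_comm (∑ i, A i)]
    ring
  have hb : ∀ i j, A i * B j + A j * B i - 2 * ((P i).re * (P j).re) ≤ 3 * K ^ 8 := fun i j => by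
    rw [hterm]
    have e1 : Complex.normSq (cross (m i) (m j)) ≤ K ^ 8 := by
      rw [← Complex.sq_norm]
      exact (pow_le_pow_left₀ (norm_nonneg _) (hcr i j) 2).trans
        (pow_le_pow_right₀ hK (by norm_num))
    have e2 : (P i).im * (P j).im ≤ K ^ 8 := by
      refine (le_abs_self _).trans ?_
      rw [abs_mul, show K ^ 8 = K ^ 4 * K ^ 4 by ring]
      exact mul_le_mul (him i) (him j) (abs_nonneg _) (by positivity)
    linarith
  have := (sum_le_sum fun i (_ : i ∈ univ) => sum_le_sum fun j (_ : j ∈ univ) => hb i j)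
  rw [← h2] at this
  simp only [sum_const, card_univ, Fintype.card_fin, nsmul_eq_mul] at this
  have : 0 ≤ (n : ℝ) ^ 2 * K ^ 8 := by positivity
  linarith

/-- The weighted form. -/
def weight (l : Fin n → ℂ × ℂ) (u : Fin n → ℝ) (x y : ℤ) : ℝ :=
  ∑ i, Complex.normSq ((l i).1 * x + (l i).2 * y) / u i ^ 2

variable {l : Fin n → ℂ × ℂ} {u : Fin n → ℝ}

theorem weight_finite (hn : 2 ≤ n) (hl : crossProd l ≠ 0) (hu : ∀ i, 0 < u i) (W : ℝ) :
    {v : ℤ × ℤ | weight l u v.1 v.2 ≤ W}.Finite := by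
  classical
  set i₀ : Fin n := ⟨0, by omega⟩
  set i₁ : Fin n := ⟨1, by omega⟩
  have h01 : i₀ ≠ i₁ := by simp [i₀, i₁, Fin.ext_iff]
  have hΔ := norm_pos_iff.2 (cross_ne_zero_of_crossProd hl h01)
  have hbound : ∀ (x y : ℤ) (i : Fin n),
      ‖(l i).1 * x + (l i).2 * y‖ ≤ u i * Real.sqrt (weight l u x y) := fun x y i => by
    have hi := hu i
    rw [← Real.sqrt_sq hi.le, ← Real.sqrt_mul (sq_nonneg _), ← Real.sqrt_sq (norm_nonneg _)]
    refine Real.sqrt_le_sqrt ?_
    rw [Complex.sq_norm, ← div_le_iff₀' (by positivity)]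
    exact single_le_sum (f := fun i => Complex.normSq ((l i).1 * x + (l i).2 * y) / u i ^ 2)
      (fun j _ => div_nonneg (Complex.normSq_nonneg _) (sq_nonneg _)) (mem_univ i)
  set L := ‖(l i₀).1‖ + ‖(l i₀).2‖ + ‖(l i₁).1‖ + ‖(l i₁).2‖
  set R := L * ((u i₀ + u i₁) * Real.sqrt (max W 0)) / ‖cross (l i₀) (l i₁)‖
  refine ((Finset.Icc (-⌈R⌉) ⌈R⌉ ×ˢ Finset.Icc (-⌈R⌉) ⌈R⌉).finite_toSet).subset fun v hv => ?_
  set z₀ := (l i₀).1 * v.1 + (l i₀).2 * v.2
  set z₁ := (l i₁).1 * v.1 + (l i₁).2 * v.2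
  have hs : Real.sqrt (weight l u v.1 v.2) ≤ Real.sqrt (max W 0) :=
    Real.sqrt_le_sqrt (le_max_of_le_left hv)
  have hz : ‖z₀‖ + ‖z₁‖ ≤ (u i₀ + u i₁) * Real.sqrt (max W 0) := by
    rw [add_mul]
    exact add_le_add ((hbound _ _ i₀).trans (mul_le_mul_of_nonneg_left hs (hu _).le))
      ((hbound _ _ i₁).trans (mul_le_mul_of_nonneg_left hs (hu _).le))
  have hx : ∀ (x : ℤ) (p q : ℂ), ‖p‖ ≤ L → ‖q‖ ≤ L →
      (x : ℂ) * cross (l i₀) (l i₁) = q * z₀ - p * z₁ → (x : ℤ) ∈ Finset.Icc (-⌈R⌉) ⌈R⌉ := by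
    intro x p q hp hq he
    have h1 : |(x : ℝ)| * ‖cross (l i₀) (l i₁)‖ ≤ L * (‖z₀‖ + ‖z₁‖) := by
      rw [← Complex.norm_intCast, ← norm_mul, he, mul_add L]
      refine (norm_sub_le _ _).trans ?_
      rw [norm_mul, norm_mul]
      exact add_le_add (mul_le_mul_of_nonneg_right hq (norm_nonneg _))
        (mul_le_mul_of_nonneg_right hp (norm_nonneg _))
    have h2 : ((|x| : ℤ) : ℝ) ≤ R := by
      rw [Int.cast_abs, le_div_iff₀ hΔ]
      exact h1.trans (mul_le_mul_of_nonneg_left hz (by positivity))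
    have h3 : |x| ≤ ⌈R⌉ := by exact_mod_cast h2.trans (Int.le_ceil R)
    exact Finset.mem_Icc.2 (abs_le.1 h3)
  refine Finset.mem_coe.2 (Finset.mem_product.2 ⟨hx _ (l i₀).2 (l i₁).2 ?_ ?_ ?_,
    hx _ (-(l i₀).1) (-(l i₁).1) ?_ ?_ ?_⟩)
  all_goals first
    | (simp only [z₀, z₁, cross]; ring1)
    | (simp only [norm_neg, L]; linarith [norm_nonneg (l i₀).1, norm_nonneg (l i₀).2,
        norm_nonneg (l i₁).1, norm_nonneg (l i₁).2])

theorem weight_pos (hn : 2 ≤ n) (hl : crossProd l ≠ 0) (hu : ∀ i, 0 < u i) {v : ℤ × ℤ}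
    (hv : v ≠ 0) : 0 < weight l u v.1 v.2 := by
  classical
  set i₀ : Fin n := ⟨0, by omega⟩
  set i₁ : Fin n := ⟨1, by omega⟩
  have h01 : i₀ ≠ i₁ := by simp [i₀, i₁, Fin.ext_iff]
  have hΔ := norm_pos_iff.2 (cross_ne_zero_of_crossProd hl h01)
  have hbound : ∀ (x y : ℤ) (i : Fin n),
      ‖(l i).1 * x + (l i).2 * y‖ ≤ u i * Real.sqrt (weight l u x y) := fun x y i => by
    have hi := hu i
    rw [← Real.sqrt_sq hi.le, ← Real.sqrt_mul (sq_nonneg _), ← Real.sqrt_sq (norm_nonneg _)]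
    refine Real.sqrt_le_sqrt ?_
    rw [Complex.sq_norm, ← div_le_iff₀' (by positivity)]
    exact single_le_sum (f := fun i => Complex.normSq ((l i).1 * x + (l i).2 * y) / u i ^ 2)
      (fun j _ => div_nonneg (Complex.normSq_nonneg _) (sq_nonneg _)) (mem_univ i)
  refine lt_of_le_of_ne (sum_nonneg fun i _ =>
    div_nonneg (Complex.normSq_nonneg _) (sq_nonneg _)) fun h => hv ?_
  have hz : ∀ i, (l i).1 * v.1 + (l i).2 * v.2 = 0 := fun i => norm_le_zero_iff.1 (by
    simpa [← h] using hbound v.1 v.2 i)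
  have hc := cross_ne_zero_of_crossProd hl h01
  have e1 : (v.1 : ℂ) * cross (l i₀) (l i₁) = 0 := by
    simp only [cross]; linear_combination (l i₁).2 * hz i₀ - (l i₀).2 * hz i₁
  have e2 : (v.2 : ℂ) * cross (l i₀) (l i₁) = 0 := by
    simp only [cross]; linear_combination (l i₀).1 * hz i₁ - (l i₁).1 * hz i₀
  exact Prod.ext (by simpa using (mul_eq_zero.1 e1).resolve_right hc)
    (by simpa using (mul_eq_zero.1 e2).resolve_right hc)

/-- The mixed term. -/
def mixed (l : Fin n → ℂ × ℂ) (u : Fin n → ℝ) (a b c d : ℤ) : ℝ :=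
  ∑ i, ((starRingEnd ℂ (substFactors l a b c d i).1) *
    (substFactors l a b c d i).2).re / u i ^ 2

theorem mixed_shift (a b c d k : ℤ) :
    mixed l u (a + k * b) b (c + k * d) d = mixed l u a b c d + k * weight l u b d := by
  simp only [mixed, weight, mul_sum, ← sum_add_distrib]
  refine sum_congr rfl fun i _ => ?_
  simp only [substFactors, Complex.normSq_apply, Complex.mul_re, Complex.add_re, Complex.add_im,
    Complex.mul_im, Complex.conj_re, Complex.conj_im, Complex.intCast_re, Complex.intCast_im,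
    Int.cast_add, Int.cast_mul, map_add, map_mul, map_intCast]
  ring

attribute [local irreducible] weight mixed

/-- A reduced basis of the weighted form. -/
theorem exists_reduced_basis (hn : 2 ≤ n) (hl : crossProd l ≠ 0)
    (hu : ∀ i, 0 < u i) :
    ∃ a b c d : ℤ, a * d - b * c = 1 ∧ 0 < weight l u b d ∧ weight l u b d ≤ weight l u a c ∧
      2 * |mixed l u a b c d| ≤ weight l u b d := by
  classical
  have hpos : ∀ v : ℤ × ℤ, v ≠ 0 → 0 < weight l u v.1 v.2 := fun v hv => weight_pos hn hl hu hv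
  set S := {v : ℤ × ℤ | v ≠ 0 ∧ weight l u v.1 v.2 ≤ weight l u 1 0} with hS
  have hSfin : S.Finite := (weight_finite hn hl hu _).subset fun v hv => hv.2
  obtain ⟨⟨b, d⟩, ⟨hv0, hvW⟩, hmin⟩ := Set.exists_min_image S (fun v => weight l u v.1 v.2) hSfin
    ⟨(1, 0), by simp, le_rfl⟩
  have hmin' : ∀ v : ℤ × ℤ, v ≠ 0 → weight l u b d ≤ weight l u v.1 v.2 := fun v hv => by
    rcases le_total (weight l u v.1 v.2) (weight l u 1 0) with h | h
    · exact hmin v ⟨hv, h⟩
    · exact hvW.trans h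
  have hgcd : Int.gcd b d = 1 := by
    set g := Int.gcd b d with hg
    have hg0 : g ≠ 0 := fun h => hv0 (by
      obtain ⟨hb, hd⟩ := Int.gcd_eq_zero_iff.1 h
      simp [hb, hd])
    obtain ⟨b', hb'⟩ : (g : ℤ) ∣ b := Int.gcd_dvd_left ..
    obtain ⟨d', hd'⟩ : (g : ℤ) ∣ d := Int.gcd_dvd_right ..
    have hv' : ((b', d') : ℤ × ℤ) ≠ 0 := fun h => hv0 (by
      simp only [Prod.mk_eq_zero] at h
      simp [hb', hd', h.1, h.2])
    have e : weight l u b d = (g : ℝ) ^ 2 * weight l u b' d' := by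
      simp only [weight, mul_sum, hb', hd']
      refine sum_congr rfl fun i _ => ?_
      rw [show (l i).1 * ((g * b' : ℤ) : ℂ) + (l i).2 * ((g * d' : ℤ) : ℂ) =
        ((g : ℝ) : ℂ) * ((l i).1 * b' + (l i).2 * d') by push_cast; ring, map_mul,
        Complex.normSq_ofReal]
      ring
    have h1 := hmin' _ hv'
    rw [e] at h1
    have h2 : (g : ℝ) ^ 2 ≤ 1 := le_of_mul_le_mul_right (by linarith) (hpos _ hv')
    have h3 : g ^ 2 ≤ 1 := by exact_mod_cast h2
    have h4 : g ≤ 1 := (Nat.le_self_pow two_ne_zero g).trans h3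
    omega
  set a₀ := Int.gcdB b d with ha₀
  set c₀ := -Int.gcdA b d with hc₀
  have hdet : a₀ * d - b * c₀ = 1 := by
    have h := Int.gcd_eq_gcd_ab b d
    rw [hgcd, Nat.cast_one] at h
    rw [ha₀, hc₀]
    linarith
  set R : ℤ → ℤ → ℝ := fun a c => mixed l u a b c d with hR
  have ha : 0 < weight l u b d := hpos _ hv0
  set k := -round (R a₀ c₀ / weight l u b d) with hk
  have hRk : R (a₀ + k * b) (c₀ + k * d) = R a₀ c₀ + k * weight l u b d :=
    mixed_shift a₀ b c₀ d k
  refine ⟨a₀ + k * b, b, c₀ + k * d, d, by linear_combination hdet, ha,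
    hmin' (a₀ + k * b, c₀ + k * d) (fun h => ?_), ?_⟩
  · simp only [Prod.mk_eq_zero] at h
    have : (a₀ + k * b) * d - b * (c₀ + k * d) = 1 := by linear_combination hdet
    rw [h.1, h.2] at this
    simp at this
  · show 2 * |R (a₀ + k * b) (c₀ + k * d)| ≤ weight l u b d
    rw [hRk, hk]
    push_cast
    set a := weight l u b d
    have h1 := abs_sub_round (R a₀ c₀ / a)
    have e : R a₀ c₀ + -(round (R a₀ c₀ / a) : ℝ) * a =
        (R a₀ c₀ / a - round (R a₀ c₀ / a)) * a := by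
      rw [sub_mul, div_mul_cancel₀ _ ha.ne']
      ring
    rw [e, abs_mul, abs_of_pos ha]
    nlinarith

theorem norm_coeff_prod_le {ι : Type*} (s : Finset ι) (p : ι → ℂ × ℂ) (k : ℕ) :
    ‖(∏ i ∈ s, (C (p i).1 * X + C (p i).2)).coeff k‖ ≤ ∏ i ∈ s, (‖(p i).1‖ + ‖(p i).2‖) := by
  classical
  induction s using Finset.induction generalizing k with
  | empty =>
    rw [prod_empty, prod_empty, coeff_one]
    split <;> simp
  | insert a s ha ih =>
    rw [prod_insert ha, prod_insert ha, add_mul, coeff_add, coeff_C_mul, mul_assoc, coeff_C_mul]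
    refine (norm_add_le _ _).trans ?_
    rw [add_mul, norm_mul, norm_mul]
    refine add_le_add (mul_le_mul_of_nonneg_left ?_ (norm_nonneg _))
      (mul_le_mul_of_nonneg_left (ih k) (norm_nonneg _))
    rcases k with _ | k
    · simp only [coeff_X_mul_zero, norm_zero]
      exact prod_nonneg fun i _ => by positivity
    · rw [coeff_X_mul]
      exact ih k

theorem finite_bounded_polys (n : ℕ) (B : ℝ) :
    {g : ℤ[X] | g.natDegree ≤ n ∧ ∀ k, |(g.coeff k : ℝ)| ≤ B}.Finite := by
  refine Set.Finite.of_finite_image (f := fun g (k : Fin (n + 1)) => g.coeff k)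
    ((Set.Finite.pi' (t := fun _ : Fin (n + 1) => Set.Icc (-⌈B⌉) ⌈B⌉) fun _ =>
      Set.finite_Icc _ _).subset ?_) ?_
  · rintro _ ⟨g, hg, rfl⟩ k
    have h : ((|g.coeff k| : ℤ) : ℝ) ≤ ⌈B⌉ := by
      rw [Int.cast_abs]
      exact (hg.2 k).trans (Int.le_ceil B)
    exact Set.mem_Icc.2 (abs_le.1 (by exact_mod_cast h))
  · intro g hg g' hg' h
    ext k
    by_cases hk : k < n + 1
    · exact congrFun h ⟨k, hk⟩
    · rw [coeff_eq_zero_of_natDegree_lt (by have := hg.1; omega),
        coeff_eq_zero_of_natDegree_lt (by have := hg'.1; omega)]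

/-- The bound for the coefficients of a reduced form. -/
def reducedBound (n : ℕ) (C M : ℝ) : ℝ :=
  balanceConst n C M * (2 * Real.sqrt (max 1 (4 * (n : ℝ) ^ 2 * balanceConst n C M ^ 8) ^ 2 *
    balanceConst n C M ^ 2)) ^ n

/-- **Reduction**: a form with bounded cross ratios and discriminant is equivalent to one with
coefficients at most `reducedBound n C M`. -/
theorem exists_reduced (hn : 3 ≤ n) {C M : ℝ} {f : ℤ[X]} {l : Fin n → ℂ × ℂ}
    (hfac : Factors n f l) (hl : crossProd l ≠ 0) (hM : ‖crossProd l‖ ≤ M)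
    (hC : CrossBounded C l) :
    ∃ g : ℤ[X], g.natDegree ≤ n ∧ SLEquiv n f g ∧
      ∀ k, |(g.coeff k : ℝ)| ≤ reducedBound n C M := by
  classical
  obtain ⟨u, hu⟩ := exists_balanced_of_bounded hn hl hM hC
  rw [reducedBound]
  have hK := one_le_balanceConst n C M
  set K := balanceConst n C M
  set E := max 1 (4 * (n : ℝ) ^ 2 * K ^ 8) with hE
  set T := E ^ 2 * K ^ 2 with hT
  set B := K * (2 * Real.sqrt T) ^ n with hB
  obtain ⟨hu0, hU, hcr⟩ := hu
  obtain ⟨a, b, c, d, hdet, hw0, hwle, hwR⟩ := exists_reduced_basis (by omega) hl hu0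
  obtain ⟨g, hg, hequiv, hval⟩ := exists_subst f n hdet
  set m := substFactors l a b c d
  have hgf : Factors n g m := hfac.subst hval
  have hcrm : ∀ i j, cross (m i) (m j) = cross (l i) (l j) := cross_substFactors l hdet
  have hlm : crossProd m ≠ 0 := by
    simpa only [crossProd, hcrm] using hl
  have hbm : Balanced K m u := ⟨hu0, hU, fun i j h => by rw [hcrm]; exact hcr i j h⟩
  set q : Fin n → ℂ × ℂ := fun i => ((m i).1 / (u i : ℂ), (m i).2 / (u i : ℂ)) with hq
  have hq1 : ∑ i, Complex.normSq (q i).1 = weight l u a c := by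
    simp [hq, weight, m, substFactors, Complex.normSq_ofReal, sq]
  have hq2 : ∑ i, Complex.normSq (q i).2 = weight l u b d := by
    simp [hq, weight, m, substFactors, Complex.normSq_ofReal, sq]
  have hqP : ∀ i, (starRingEnd ℂ (q i).1) * (q i).2 =
      ((starRingEnd ℂ (m i).1) * (m i).2) / ((u i ^ 2 : ℝ) : ℂ) := fun i => by
    simp only [hq, map_div₀, Complex.conj_ofReal]
    push_cast
    field_simp
  have hgram := gram_le hK (m := q) (fun i j => by
    rcases eq_or_ne i j with rfl | hij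
    · rw [cross_self, norm_zero]; linarith
    have e : cross (q i) (q j) = cross (m i) (m j) / ((u i : ℂ) * (u j : ℂ)) := by
      simp only [hq, cross]
      field_simp
    rw [e, norm_div, norm_mul, Complex.norm_real, Complex.norm_real, Real.norm_eq_abs,
      Real.norm_eq_abs, abs_of_pos (hu0 i), abs_of_pos (hu0 j),
      div_le_iff₀ (mul_pos (hu0 i) (hu0 j))]
    exact (hbm.2.2 i j hij).2) (fun i => by
    rw [hqP, Complex.div_ofReal_im, abs_div, abs_of_pos (pow_pos (hu0 i) 2),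
      div_le_iff₀ (pow_pos (hu0 i) 2)]
    exact abs_im_le hn hK hgf hlm hbm i)
  simp only [hq1, hq2, hqP, Complex.div_ofReal_re] at hgram
  set R := mixed l u a b c d
  rw [show (∑ i, ((starRingEnd ℂ (m i).1) * (m i).2).re / u i ^ 2) = R by
    simp only [R, mixed, m]] at hgram
  set α := weight l u b d
  set β := weight l u a c
  have hE1 : 1 ≤ E := le_max_left _ _
  have hprod : β * α ≤ E := by
    have h1 : 4 * R ^ 2 ≤ α ^ 2 := by nlinarith [abs_nonneg R, sq_abs R]
    have h2 : α ^ 2 ≤ α * β := by nlinarith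
    have h3 : 4 * (n : ℝ) ^ 2 * K ^ 8 ≤ E := le_max_right _ _
    nlinarith
  have hb1 : ∀ i, ‖(q i).1‖ ≤ Real.sqrt β ∧ ‖(q i).2‖ ≤ Real.sqrt α := fun i => by
    rw [← Real.sqrt_sq (norm_nonneg (q i).1), ← Real.sqrt_sq (norm_nonneg (q i).2),
      Complex.sq_norm, Complex.sq_norm, ← hq1, ← hq2]
    exact ⟨Real.sqrt_le_sqrt (single_le_sum (f := fun i => Complex.normSq (q i).1)
      (fun j _ => Complex.normSq_nonneg _) (mem_univ i)),
      Real.sqrt_le_sqrt (single_le_sum (f := fun i => Complex.normSq (q i).2)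
      (fun j _ => Complex.normSq_nonneg _) (mem_univ i))⟩
  have hnm : ∀ i, ‖(m i).1‖ = u i * ‖(q i).1‖ ∧ ‖(m i).2‖ = u i * ‖(q i).2‖ := fun i => by
    simp [hq, Complex.norm_real, abs_of_pos (hu0 i), mul_div_cancel₀ _ (hu0 i).ne']
  have hmap := hgf.map_eq_prod hg
  have hcoef : ∀ k, ((g.coeff k : ℤ) : ℂ) =
      (∏ i, (Polynomial.C (m i).1 * X + Polynomial.C (m i).2)).coeff k :=
    fun k => by rw [← hmap, coeff_map]; rfl
  have hα : 1 ≤ K ^ 2 * α ^ (n - 1) * β := by
    have hβ0 : 0 ≤ β := hw0.le.trans hwle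
    obtain ⟨i₀, z, hzB, hzabs⟩ : ∃ (i₀ : Fin n) (z : ℤ), z ≠ 0 ∧
        |(z : ℝ)| ≤ (u i₀ * Real.sqrt β) * ∏ i ∈ univ.erase i₀, (u i * Real.sqrt α) := by
      have hne : ∀ i j, i ≠ j → (m i).2 = 0 → (m j).2 ≠ 0 ∧ (m i).1 ≠ 0 := fun i j hij h => by
        have := cross_ne_zero_of_crossProd hlm hij
        rw [cross, h, mul_zero, sub_zero] at this
        exact ⟨right_ne_zero_of_mul this, left_ne_zero_of_mul this⟩
      have hle : ∀ i, ‖(m i).2‖ ≤ u i * Real.sqrt α := fun i => by
        rw [(hnm i).2]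
        exact mul_le_mul_of_nonneg_left (hb1 i).2 (hu0 i).le
      by_cases h0 : ∃ i, (m i).2 = 0
      · obtain ⟨i₀, hi₀⟩ := h0
        refine ⟨i₀, g.coeff 1, ?_, ?_⟩
        all_goals
          have e : ((g.coeff 1 : ℤ) : ℂ) = (m i₀).1 * ∏ i ∈ univ.erase i₀, (m i).2 := by
            rw [hcoef, ← mul_prod_erase univ _ (mem_univ i₀), hi₀, map_zero, add_zero, mul_assoc,
              coeff_C_mul, coeff_X_mul, coeff_zero_prod]
            simp
        · intro hz
          rw [hz, Int.cast_zero] at e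
          obtain ⟨p, hp⟩ := Fintype.exists_ne_of_one_lt_card
            (by rw [Fintype.card_fin]; omega) i₀
          rcases mul_eq_zero.1 e.symm with h | h
          · exact (hne i₀ p hp.symm hi₀).2 h
          · obtain ⟨i, hi, hi'⟩ := prod_eq_zero_iff.1 h
            exact (hne i₀ i (ne_of_mem_erase hi).symm hi₀).1 hi'
        · rw [← Complex.norm_intCast, e, norm_mul, norm_prod, (hnm i₀).1]
          exact mul_le_mul (mul_le_mul_of_nonneg_left (hb1 i₀).1 (hu0 i₀).le)
            (prod_le_prod (fun i _ => norm_nonneg _) fun i _ => hle i)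
            (prod_nonneg fun i _ => norm_nonneg _) (mul_nonneg (hu0 i₀).le (Real.sqrt_nonneg _))
      · push Not at h0
        refine ⟨⟨0, by omega⟩, g.coeff 0, fun hz => ?_, ?_⟩
        all_goals
          have e : ((g.coeff 0 : ℤ) : ℂ) = ∏ i, (m i).2 := by
            rw [hcoef, coeff_zero_prod]
            simp
        · rw [hz, Int.cast_zero] at e
          obtain ⟨i, -, hi⟩ := prod_eq_zero_iff.1 e.symm
          exact h0 i hi
        · rw [← Complex.norm_intCast, e, norm_prod, ← mul_prod_erase univ _ (mem_univ _)]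
          exact mul_le_mul ((hle _).trans (mul_le_mul_of_nonneg_left
            (Real.sqrt_le_sqrt hwle) (hu0 _).le))
            (prod_le_prod (fun i _ => norm_nonneg _) fun i _ => hle i)
            (prod_nonneg fun i _ => norm_nonneg _) (mul_nonneg (hu0 _).le (Real.sqrt_nonneg _))
    have h1 : (1 : ℝ) ≤ |(z : ℝ)| := by
      rw [← Int.cast_abs]
      exact_mod_cast Int.one_le_abs hzB
    have h2 : |(z : ℝ)| ≤ K * (Real.sqrt α ^ (n - 1) * Real.sqrt β) := by
      refine hzabs.trans ?_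
      rw [prod_mul_distrib, prod_const, card_erase_of_mem (mem_univ _), card_univ,
        Fintype.card_fin, show u i₀ * Real.sqrt β * ((∏ i ∈ univ.erase i₀, u i) *
          Real.sqrt α ^ (n - 1)) = (u i₀ * ∏ i ∈ univ.erase i₀, u i) *
          (Real.sqrt α ^ (n - 1) * Real.sqrt β) by ring, mul_prod_erase _ _ (mem_univ i₀)]
      exact mul_le_mul_of_nonneg_right hU (by positivity)
    have h3 := pow_le_pow_left₀ zero_le_one (h1.trans h2) 2
    rw [one_pow, mul_pow, mul_pow, ← pow_mul, mul_comm (n - 1) 2, pow_mul, Real.sq_sqrt hw0.le,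
      Real.sq_sqrt hβ0, ← mul_assoc] at h3
    exact h3
  have hlow : 1 ≤ K ^ 2 * E * α := by
    have h1 : 1 ≤ K ^ 2 * E * α ^ (n - 2) := by
      refine hα.trans ?_
      rw [show n - 1 = n - 2 + 1 by omega, pow_succ α]
      calc K ^ 2 * (α ^ (n - 2) * α) * β = K ^ 2 * α ^ (n - 2) * (β * α) := by ring
        _ ≤ K ^ 2 * α ^ (n - 2) * E := mul_le_mul_of_nonneg_left hprod (by positivity)
        _ = _ := by ring
    rcases le_total α 1 with h | h
    · refine h1.trans (mul_le_mul_of_nonneg_left ?_ (by positivity))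
      exact pow_le_of_le_one hw0.le h (by omega)
    · exact (one_le_mul_of_one_le_of_one_le (one_le_mul_of_one_le_of_one_le
        (one_le_pow₀ hK) hE1) h)
  have hβT : β ≤ T := by
    rw [hT]
    nlinarith [mul_le_mul_of_nonneg_left hlow (hw0.le.trans hwle),
      mul_le_mul_of_nonneg_left hprod (by positivity : (0 : ℝ) ≤ K ^ 2 * E)]
  refine ⟨g, hg, hequiv, fun k => ?_⟩
  rw [← Complex.norm_intCast, hcoef]
  refine (norm_coeff_prod_le _ _ k).trans ?_
  calc ∏ i, (‖(m i).1‖ + ‖(m i).2‖) ≤ ∏ i, u i * (2 * Real.sqrt T) :=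
        prod_le_prod (fun i _ => by positivity) fun i _ => by
          rw [(hnm i).1, (hnm i).2, ← mul_add]
          refine mul_le_mul_of_nonneg_left ?_ (hu0 i).le
          have := (hb1 i).1.trans (Real.sqrt_le_sqrt hβT)
          have := (hb1 i).2.trans (Real.sqrt_le_sqrt (hwle.trans hβT))
          linarith
    _ ≤ B := by
      rw [prod_mul_distrib, prod_const, card_univ, Fintype.card_fin, hB]
      exact mul_le_mul_of_nonneg_right hU (by positivity)

/-- **Reduction**: forms with bounded cross ratios and bounded discriminant fall into finitely many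
classes. -/
theorem exists_finite_reduced (hn : 3 ≤ n) (C M : ℝ) :
    ∃ P : Finset ℤ[X], ∀ (f : ℤ[X]) (l : Fin n → ℂ × ℂ), f.natDegree ≤ n → Factors n f l →
      crossProd l ≠ 0 → ‖crossProd l‖ ≤ M → CrossBounded C l → ∃ g ∈ P, SLEquiv n f g :=
  ⟨(finite_bounded_polys n (reducedBound n C M)).toFinset, fun _ _ _ hfac hl hM hC =>
    let ⟨g, hg, he, hB⟩ := exists_reduced hn hfac hl hM hC
    ⟨g, (Set.Finite.mem_toFinset _).2 ⟨hg, hB⟩, he⟩⟩

end FA.BirchMerriman

end
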