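import Fermat.Agent.BirchMerriman.Shift
import Fermat.Agent.BirchMerriman.Discriminant
import Fermat.Agent.BirchMerriman.Reduce
import Fermat.Agent.Gyory.Tuples
import Fermat.Agent.Gyory.SIntegral

/-!
# Cross ratios of forms of given discriminant

At a prime `q` above the degree and the discriminant a substitution makes the leading coefficient a
unit, so scaled roots are integers with unit differences: inertia fixes the roots, they lie in one
number field, and there the cross ratios are solutions of the unit equation.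
-/

set_option autoImplicit false
set_option linter.style.haveILetI false

noncomputable section

open Polynomial NumberField IsDedekindDomain Finset

local notation "Qb" => AlgebraicClosure ℚ
local notation "GQ" => AlgebraicClosure ℚ ≃ₐ[ℚ] AlgebraicClosure ℚ

namespace FA.BirchMerriman

variable {n : ℕ}

/-- The root of a linear form. -/
def rootOf {E : Type*} [Field E] (p : E × E) : E := -p.2 / p.1

theorem cross_eq_rootOf {E : Type*} [Field E] {p r : E × E} (hp : p.1 ≠ 0) (hr : r.1 ≠ 0) :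
    cross p r = p.1 * r.1 * (rootOf p - rootOf r) := by
  simp only [cross, rootOf]
  field_simp
  ring

/-- Integral scaled roots with differences units at `q`. -/
theorem exists_integral_roots {g : ℤ[X]} {l : Fin n → Qb × Qb} (hl : Splitting g l)
    (hd : g.natDegree = n) (hn : 2 ≤ n) {q : ℕ} (hq : q.Prime) (hqn : n < q)
    (hqD : ¬(q : ℤ) ∣ g.discr) :
    ∃ (a x₀ c : ℤ) (X : Fin n → Qb), ¬(q : ℤ) ∣ a ∧ ¬(q : ℤ) ∣ c ∧ Gyory.diffProd X = (c : Qb) ∧
      (∀ i, IsIntegral ℤ (X i) ∧ (l i).1 * x₀ + (l i).2 ≠ 0 ∧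
        X i = a * (l i).1 / ((l i).1 * x₀ + (l i).2)) ∧
      ∀ (σ : Qb →+* Qb) (i : Fin n), ∃ j, σ (X i) = X j := by
  classical
  obtain ⟨h, x₀, hhd, hha, hhom⟩ := exists_unit_lead hd hn hq hqn hqD
  set a := h.coeff n with ha
  have hl' := hl.subst hhd.le hhom
  set m := substFactors l x₀ (-1) 1 0 with hm
  have hm1 : ∀ i, (m i).1 = (l i).1 * x₀ + (l i).2 := fun i => by simp [hm, substFactors]
  have hm2 : ∀ i, (m i).2 = -(l i).1 := fun i => by simp [hm, substFactors]
  have hne : ∀ i, (l i).1 * x₀ + (l i).2 ≠ 0 := fun i => hm1 i ▸ hl'.fst_ne_zero hhd i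
  have hroot : ∀ i, Polynomial.aeval (rootOf (m i)) h = 0 := fun i => by
    rw [Polynomial.aeval_def, ← eval_map]
    rw [show h.map (algebraMap ℤ Qb) = _ from hl', eval_prod]
    refine prod_eq_zero (mem_univ i) ?_
    simp only [eval_add, eval_mul, eval_C, Polynomial.eval_X, rootOf]
    rw [mul_div_cancel₀ _ (hl'.fst_ne_zero hhd i)]
    ring
  set X : Fin n → Qb := fun i => a * (l i).1 / ((l i).1 * x₀ + (l i).2) with hX
  have hXm : ∀ i, X i = a * rootOf (m i) := fun i => by
    simp only [hX, rootOf, hm1, hm2, neg_neg, mul_div_assoc]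
  have hlead : h.leadingCoeff = a := by rw [leadingCoeff, hhd]
  have hint : ∀ i, IsIntegral ℤ (X i) := fun i => by
    have := isIntegral_leadingCoeff_smul h (rootOf (m i)) (hroot i)
    rwa [hlead, zsmul_eq_mul, ← hXm] at this
  refine ⟨a, x₀, a ^ ((n - 1) * (n - 2)) * (discrSign n * g.discr), X, hha, ?_, ?_,
    fun i => ⟨hint i, hne i, rfl⟩, fun σ i => ?_⟩
  · have hqp := Nat.prime_iff_prime_int.1 hq
    intro h1
    rcases hqp.dvd_mul.1 h1 with h2 | h2
    · exact hha (hqp.dvd_of_dvd_pow h2)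
    · rcases Int.natAbs_eq_iff.1 (natAbs_discrSign n) with e | e <;> rw [e] at h2 <;>
        exact hqD (by simpa using h2)
  · have hdiff : ∀ i j, X i - X j = (a : Qb) *
        cross (((l i).1 * x₀ + (l i).2)⁻¹ • l i) (((l j).1 * x₀ + (l j).2)⁻¹ • l j) := fun i j => by
      have hi := hne i
      have hj := hne j
      simp only [hX, cross, Prod.smul_fst, Prod.smul_snd, smul_eq_mul, div_eq_mul_inv]
      linear_combination ((a : Qb) * (l j).1 * ((l j).1 * x₀ + (l j).2)⁻¹) * mul_inv_cancel₀ hi -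
        ((a : Qb) * (l i).1 * ((l i).1 * x₀ + (l i).2)⁻¹) * mul_inv_cancel₀ hj
    have hprod : ∏ i, ((l i).1 * x₀ + (l i).2) = (a : Qb) := by
      have h1 := congrArg Polynomial.leadingCoeff (hl' : h.map (Int.castRingHom Qb) = _)
      rw [leadingCoeff_map_of_injective Int.cast_injective, hlead, leadingCoeff_prod,
        eq_intCast] at h1
      rw [h1]
      exact prod_congr rfl fun i _ => by
        rw [leadingCoeff_linear (hl'.fst_ne_zero hhd i), hm1]
    have ha0 : (a : Qb) ≠ 0 := hprod ▸ prod_ne_zero_iff.2 fun i _ => hne i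
    simp only [Gyory.diffProd, hdiff, prod_mul_distrib, prod_const, card_erase_of_mem (mem_univ _),
      card_univ, Fintype.card_fin]
    rw [show (∏ i, ∏ j ∈ univ.erase i, cross (((l i).1 * x₀ + (l i).2)⁻¹ • l i)
        (((l j).1 * x₀ + (l j).2)⁻¹ • l j)) =
      crossProd (fun i => ((l i).1 * x₀ + (l i).2)⁻¹ • l i) from rfl, crossProd_smul,
      prod_inv_distrib, hprod, hl.crossProd_eq hd (by omega), ← pow_mul, ← mul_assoc]
    push_cast
    congr 1
    rw [inv_pow, ← div_eq_mul_inv, div_eq_iff (pow_ne_zero _ ha0), ← pow_add]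
    congr 1
    obtain ⟨k, rfl⟩ : ∃ k, n = k + 2 := ⟨n - 2, by omega⟩
    simp only [show k + 2 - 1 = k + 1 by omega, Nat.add_sub_cancel]
    ring
  · have h0 : Polynomial.aeval (σ (rootOf (m i))) h = 0 := by
      rw [← show σ.toIntAlgHom (rootOf (m i)) = σ (rootOf (m i)) from rfl,
        Polynomial.aeval_algHom_apply, hroot, map_zero]
    rw [Polynomial.aeval_def, ← eval_map, show h.map (algebraMap ℤ Qb) = _ from hl', eval_prod,
      prod_eq_zero_iff] at h0
    obtain ⟨j, -, hj⟩ := h0
    simp only [eval_add, eval_mul, eval_C, Polynomial.eval_X] at hj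
    refine ⟨j, ?_⟩
    rw [hXm, hXm, map_mul, map_intCast]
    congr 1
    rw [show rootOf (m j) = -(m j).2 / (m j).1 from rfl, eq_div_iff (hl'.fst_ne_zero hhd j)]
    linear_combination hj

/-- **One field** contains the roots. -/
theorem exists_root_field (n M : ℕ) (hn : 2 ≤ n) :
    ∃ L : IntermediateField ℚ Qb, FiniteDimensional ℚ L ∧ ∀ (g : ℤ[X]) (l : Fin n → Qb × Qb),
      Splitting g l → g.natDegree = n → g.discr ≠ 0 → g.discr.natAbs ≤ M →
        ∀ i, rootOf (l i) ∈ L := by
  classical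
  obtain ⟨L, hL, habove⟩ := Gyory.exists_field_above (n + M).factorial n
  refine ⟨L, hL, fun g l hl hd hD0 hD i => ?_⟩
  set θ := rootOf (l i)
  have hg0 : g ≠ 0 := fun h => by rw [h, natDegree_zero] at hd; omega
  have hroot : Polynomial.aeval θ (g.map (algebraMap ℤ ℚ)) = 0 := by
    rw [aeval_map_algebraMap, Polynomial.aeval_def, ← eval_map,
      show g.map (algebraMap ℤ Qb) = _ from hl, eval_prod]
    refine prod_eq_zero (mem_univ i) ?_
    simp only [eval_add, eval_mul, eval_C, Polynomial.eval_X, θ, rootOf]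
    rw [mul_div_cancel₀ _ (hl.fst_ne_zero hd i)]
    ring
  have hgq : g.map (algebraMap ℤ ℚ) ≠ 0 :=
    (Polynomial.map_ne_zero_iff Int.cast_injective).2 hg0
  have halg : IsAlgebraic ℚ θ := ⟨_, hgq, hroot⟩
  haveI := IntermediateField.adjoin.finiteDimensional halg.isIntegral
  refine habove (IntermediateField.adjoin ℚ {θ}) inferInstance ?_ ?_
    (IntermediateField.mem_adjoin_simple_self ℚ θ)
  · rw [IntermediateField.adjoin.finrank halg.isIntegral]
    refine (natDegree_le_of_dvd (minpoly.dvd ℚ θ hroot) hgq).trans ?_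
    exact natDegree_map_le.trans hd.le
  intro q hq hqN A hA σ hσ
  have hqN' : n + M < q := by
    by_contra! h
    exact hqN (Nat.mem_primeFactors.2
      ⟨hq, Nat.dvd_factorial hq.pos h, Nat.factorial_ne_zero _⟩)
  have hqD : ¬(q : ℤ) ∣ g.discr := fun h => by
    have := Nat.le_of_dvd (Int.natAbs_pos.2 hD0) (Int.natCast_dvd.1 h)
    omega
  obtain ⟨a, x₀, c, X, hqa, hqc, hdiff, hX, hperm⟩ :=
    exists_integral_roots hl hd hn hq (by omega) hqD
  refine Gyory.mem_fixingSubgroup_adjoin ?_
  have hc0 : c.natAbs ≠ 0 := fun h => hqc (by simp [Int.natAbs_eq_zero.1 h])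
  have hsep : Gyory.Separated c.natAbs (univ.image X) := by
    intro x hx
    obtain ⟨i, -, rfl⟩ := mem_image.1 hx
    refine ⟨Gyory.NInt.of_isIntegral (hX i).1, fun y hy hne => ?_⟩
    obtain ⟨j, -, rfl⟩ := mem_image.1 hy
    have hji : j ≠ i := fun h => hne (h ▸ rfl)
    have hint : ∀ s t, IsIntegral ℤ (X s - X t) := fun s t => (hX s).1.sub (hX t).1
    set R : Qb := (∏ t ∈ (univ.erase j).erase i, (X j - X t)) *
      ∏ s ∈ univ.erase j, ∏ t ∈ univ.erase s, (X s - X t)
    have hRint : IsIntegral ℤ R := (IsIntegral.prod _ fun t _ => hint _ _).mul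
      (IsIntegral.prod _ fun s _ => IsIntegral.prod _ fun t _ => hint _ _)
    have hR : (X j - X i) * R = (c : Qb) := by
      rw [← hdiff, Gyory.diffProd, ← mul_prod_erase univ _ (mem_univ j),
        ← mul_prod_erase _ _ (mem_erase.2 ⟨hji.symm, mem_univ i⟩), mul_assoc]
    refine ⟨1, ?_⟩
    have e : (c : Qb) * (X j - X i)⁻¹ = R := by
      rw [← hR]
      field_simp [sub_ne_zero.2 hne]
    rcases Int.natAbs_eq c with h | h
    · rw [pow_one, ← Int.cast_natCast c.natAbs, ← h, e]
      exact hRint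
    · rw [pow_one, ← Int.cast_natCast c.natAbs, show (c.natAbs : ℤ) = -c by omega, Int.cast_neg,
        neg_mul, e]
      exact hRint.neg
  obtain ⟨j, hj⟩ := hperm (σ.toAlgHom.toRingHom) i
  have hfix : σ (X i) = X i := Gyory.inertia_fix hsep hq
    (fun h => hqc (Int.natCast_dvd.2 h)) hA hσ (mem_image_of_mem X (mem_univ i))
    (mem_image.2 ⟨j, mem_univ j, hj.symm⟩)
  obtain ⟨-, hne, hXi⟩ := hX i
  have hα := hl.fst_ne_zero hd i
  have ha0 : (a : Qb) ≠ 0 := Int.cast_ne_zero.2 fun h => hqa (h ▸ dvd_zero _)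
  have hθ : θ = x₀ - a / X i := by
    rw [hXi]
    simp only [θ, rootOf]
    field_simp
    ring
  rw [hθ, map_sub, map_div₀, hfix, map_intCast, map_intCast]

/-- **The cross ratios are bounded.** -/
theorem exists_crossBounded (n M : ℕ) (hn : 2 ≤ n) (ι : Qb →+* ℂ) :
    ∃ C : ℝ, ∀ (g : ℤ[X]) (l : Fin n → Qb × Qb), Splitting g l → g.natDegree = n →
      g.discr ≠ 0 → g.discr.natAbs ≤ M →
        CrossBounded C (fun i => (ι (l i).1, ι (l i).2)) := by
  classical
  obtain ⟨L, hfd, hroots⟩ := exists_root_field n M hn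
  haveI : NumberField L := @NumberField.mk _ _ inferInstance hfd
  obtain ⟨S, hS⟩ := Subspace.exists_primes_unit (K := L)
    (fun _ : Unit => ((n + M).factorial : 𝓞 L))
    fun _ => Nat.cast_ne_zero.2 (Nat.factorial_ne_zero _)
  obtain ⟨E, hE⟩ := Gyory.exists_ratio_set S
  refine ⟨∑ e ∈ E, ‖ι (e : Qb)‖, fun g l hl hd hD0 hD i j k m hij hik him hjk hjm hkm => ?_⟩
  set θ : Fin n → L := fun i => ⟨rootOf (l i), hroots g l hl hd hD0 hD i⟩
  have hα : ∀ i, (l i).1 ≠ 0 := hl.fst_ne_zero hd
  have hcp : crossProd l ≠ 0 := by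
    rw [hl.crossProd_eq hd (by omega)]
    refine Int.cast_ne_zero.2 (mul_ne_zero (fun h => ?_) hD0)
    have := natAbs_discrSign n
    rw [h] at this
    simp at this
  have hθne : ∀ i j, i ≠ j → θ i - θ j ≠ 0 := fun i j hij h => by
    refine cross_ne_zero_of_crossProd hcp hij ?_
    rw [cross_eq_rootOf (hα i) (hα j), show rootOf (l i) - rootOf (l j) = ((θ i - θ j : L) : Qb)
      from rfl, h]
    simp
  set R : Fin n → Fin n → Fin n → Fin n → L := fun i j k m =>
    (θ i - θ j) * (θ k - θ m) / ((θ i - θ k) * (θ j - θ m)) with hR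
  have hunit : ∀ i j k m, i ≠ j → k ≠ m → i ≠ k → j ≠ m → Gyory.IsSUnit S (R i j k m) := by
    intro i j k m hij hkm hik hjm
    refine ⟨div_ne_zero (mul_ne_zero (hθne _ _ hij) (hθne _ _ hkm))
      (mul_ne_zero (hθne _ _ hik) (hθne _ _ hjm)), fun v hv => ?_⟩
    set N := Ideal.absNorm v.asIdeal
    have hN1 : N ≠ 1 := fun h => v.isPrime.ne_top (Ideal.absNorm_eq_one_iff.1 h)
    have hNmem : (N : 𝓞 L) ∈ v.asIdeal := Ideal.absNorm_mem _
    have hN0 : N ≠ 0 := fun h => v.ne_bot (Ideal.absNorm_eq_zero_iff.1 h)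
    obtain ⟨q, hq, hqmem⟩ : ∃ q : ℕ, q.Prime ∧ (q : 𝓞 L) ∈ v.asIdeal := by
      by_contra! hcon
      have hall : ∀ r : ℕ, r ≠ 0 → r ≠ 1 → (r : 𝓞 L) ∉ v.asIdeal := by
        intro r
        induction r using Nat.strong_induction_on with
        | _ r ih =>
          intro h0 h1
          obtain ⟨p, hp, t, rfl⟩ := Nat.exists_prime_and_dvd h1
          rw [Nat.cast_mul]
          refine fun h => (v.isPrime.mem_or_mem h).elim (hcon p hp) ?_
          rcases eq_or_ne t 1 with rfl | ht
          · exact fun h => v.isPrime.ne_top ((Ideal.eq_top_iff_one _).2 (by simpa using h))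
          · exact ih t (lt_mul_of_one_lt_left (Nat.pos_of_ne_zero (right_ne_zero_of_mul h0))
              hp.one_lt) (right_ne_zero_of_mul h0) ht
      exact hall N hN0 hN1 hNmem
    have hfac : ((n + M).factorial : 𝓞 L) ∉ v.asIdeal := by
      rw [← FinitePlace.norm_eq_one_iff_notMem L v, FinitePlace.norm_embedding]
      exact hS () v hv
    have hqbig : n + M < q := by
      by_contra! h
      obtain ⟨t, ht⟩ := Nat.dvd_factorial hq.pos h
      exact hfac (by rw [ht, Nat.cast_mul]; exact Ideal.mul_mem_right _ _ hqmem)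
    have hqD : ¬(q : ℤ) ∣ g.discr := fun h => by
      have := Nat.le_of_dvd (Int.natAbs_pos.2 hD0) (Int.natCast_dvd.1 h)
      omega
    obtain ⟨a, x₀, c, X, hqa, hqc, hdiff, hX, -⟩ :=
      exists_integral_roots hl hd hn hq (by omega) hqD
    have ha0 : (a : Qb) ≠ 0 := Int.cast_ne_zero.2 fun h => hqa (h ▸ dvd_zero _)
    have hXθ : ∀ i, X i = (((a : L) / ((x₀ : L) - θ i) : L) : Qb) := fun i => by
      obtain ⟨-, hne, hXi⟩ := hX i
      push_cast
      rw [hXi, show ((θ i : L) : Qb) = rootOf (l i) from rfl, rootOf]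
      rw [show (x₀ : Qb) - -(l i).2 / (l i).1 = ((l i).1 * x₀ + (l i).2) / (l i).1 by
        rw [eq_div_iff (hα i), sub_mul, div_mul_cancel₀ _ (hα i)]; ring, div_div_eq_mul_div]
    set y : Fin n → L := fun i => (a : L) / ((x₀ : L) - θ i)
    have hyint : ∀ i, IsIntegral ℤ (y i) := fun i =>
      (isIntegral_algebraMap_iff (R := ℤ) (x := y i) (algebraMap L Qb).injective).1
        (show IsIntegral ℤ ((y i : L) : Qb) from hXθ i ▸ (hX i).1)
    set z : Fin n → 𝓞 L := fun i => ⟨y i, hyint i⟩
    have hle : ∀ w : 𝓞 L, HeightOneSpectrum.adicAbv L v (w : L) ≤ 1 := fun w => by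
      rw [← FinitePlace.norm_embedding]
      exact FinitePlace.norm_le_one L v w
    have hz : Gyory.diffProd z = (c : 𝓞 L) := by
      refine RingOfIntegers.coe_injective (Subtype.val_injective ?_)
      simp only [Gyory.diffProd, map_prod, map_sub, map_intCast]
      rw [IntermediateField.coe_prod]
      push_cast
      rw [← hdiff, Gyory.diffProd]
      exact prod_congr rfl fun i _ => prod_congr rfl fun j _ => by rw [hXθ, hXθ]; rfl
    have hcv : HeightOneSpectrum.adicAbv L v ((c : 𝓞 L) : L) = 1 := by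
      rw [← FinitePlace.norm_embedding, FinitePlace.norm_eq_one_iff_notMem L v]
      intro hc
      obtain ⟨u, w, huw⟩ := (Nat.prime_iff_prime_int.1 hq).coprime_iff_not_dvd.2 hqc
      refine v.isPrime.ne_top ((Ideal.eq_top_iff_one _).2 ?_)
      rw [← Int.cast_one, ← huw]
      push_cast
      exact add_mem (Ideal.mul_mem_left _ _ hqmem) (Ideal.mul_mem_left _ _ hc)
    have hone : ∀ i j, i ≠ j → HeightOneSpectrum.adicAbv L v (y i - y j) = 1 := fun i j hij => by
      obtain ⟨w, hw⟩ : z i - z j ∣ (c : 𝓞 L) := hz ▸ (dvd_prod_of_mem (fun j => z i - z j)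
        (mem_erase.2 ⟨hij.symm, mem_univ j⟩)).trans
          (dvd_prod_of_mem (fun i => ∏ j ∈ univ.erase i, (z i - z j)) (mem_univ i))
      have e : ((z i - z j : 𝓞 L) : L) = y i - y j := rfl
      rw [hw, show (((z i - z j) * w : 𝓞 L) : L) = (y i - y j) * (w : L) from rfl, map_mul] at hcv
      have h1 := hle (z i - z j)
      rw [e] at h1
      exact le_antisymm h1 (hcv.symm.trans_le
        (mul_le_of_le_one_right (AbsoluteValue.nonneg _ _) (hle w)))
    have hden : ∀ i, (x₀ : L) - θ i ≠ 0 := fun i h => by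
      obtain ⟨-, hne, hXi⟩ := hX i
      have h2 := congrArg (fun t : L => (t : Qb)) h
      push_cast at h2
      rw [show ((θ i : L) : Qb) = rootOf (l i) from rfl, rootOf] at h2
      refine hne ?_
      have := hα i
      field_simp at h2
      linear_combination h2
    have hy : R i j k m = (y i - y j) * (y k - y m) / ((y i - y k) * (y j - y m)) := by
      have h1 := hden i
      have h2 := hden j
      have h3 := hden k
      have h4 := hden m
      have h5 := hθne i k hik
      have h6 := hθne j m hjm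
      have h7 : (a : L) ≠ 0 := Int.cast_ne_zero.2 fun h => hqa (h ▸ dvd_zero _)
      have hyd : ∀ i j, (x₀ : L) - θ i ≠ 0 → (x₀ : L) - θ j ≠ 0 → y i - y j =
          (a : L) * (θ i - θ j) / (((x₀ : L) - θ i) * ((x₀ : L) - θ j)) := fun i j p q => by
        simp only [y]
        rw [div_sub_div _ _ p q]
        congr 1
        ring
      rw [hyd i j h1 h2, hyd k m h3 h4, hyd i k h1 h3, hyd j m h2 h4, div_mul_div_comm,
        div_mul_div_comm]
      simp only [hR]
      field_simp
    rw [hy, map_div₀, map_mul, map_mul, hone i j hij, hone k m hkm, hone i k hik, hone j m hjm,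
      mul_one, div_one]
  have hsum : R i j k m - 1 = -R i m k j := by
    have h1 := hθne i k hik
    have h2 := hθne j m hjm
    have h3 := hθne m j hjm.symm
    simp only [hR]
    field_simp
    ring
  have hmem : R i j k m ∈ E := by
    have h := hE 0 1 (R i j k m) (by rw [sub_zero]; exact ⟨one_ne_zero, fun v _ => map_one _⟩)
      (by rw [sub_zero]; exact hunit i j k m hij hkm hik hjm)
      (by rw [hsum]; exact (hunit i m k j him hjk.symm hik hjm.symm).neg)
    simpa using h
  have hC := single_le_sum (f := fun e : L => ‖ι (e : Qb)‖) (fun _ _ => norm_nonneg _) hmem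
  have e : ∀ i j, cross ((ι (l i).1, ι (l i).2) : ℂ × ℂ) (ι (l j).1, ι (l j).2) =
      ι (l i).1 * ι (l j).1 * ι ((θ i - θ j : L) : Qb) := fun i j => by
    rw [← map_mul, ← map_mul, show ((θ i - θ j : L) : Qb) = rootOf (l i) - rootOf (l j) from rfl,
      ← cross_eq_rootOf (hα i) (hα j)]
    simp [cross]
  have hne1 := (map_ne_zero ι).2 (ZeroMemClass.coe_eq_zero.not.2 (hθne i k hik))
  have hne2 := (map_ne_zero ι).2 (ZeroMemClass.coe_eq_zero.not.2 (hθne j m hjm))
  simp only [e, norm_mul]
  simp only [hR] at hC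
  push_cast at hC hne1 hne2
  rw [map_div₀, norm_div, map_mul, map_mul, norm_mul, norm_mul,
    div_le_iff₀ (mul_pos (norm_pos_iff.2 hne1) (norm_pos_iff.2 hne2))] at hC
  refine le_trans (le_of_eq ?_) ((mul_le_mul_of_nonneg_left hC
    (show 0 ≤ ‖ι (l i).1‖ * ‖ι (l j).1‖ * (‖ι (l k).1‖ * ‖ι (l m).1‖) by positivity)).trans
    (le_of_eq ?_)) <;> push_cast <;> ring

/-- A form with linear factors and nonzero discriminant, moved to full degree. -/
theorem exists_full (hn : 2 ≤ n) {f : ℤ[X]} {l : Fin n → ℂ × ℂ} (hf : f.natDegree ≤ n)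
    (hl : Factors n f l) (h0 : crossProd l ≠ 0) :
    ∃ g : ℤ[X], g.natDegree = n ∧ SLEquiv n f g ∧ g.discr ≠ 0 ∧
      (g.discr.natAbs : ℝ) = ‖crossProd l‖ := by
  classical
  have hsp : Splitting f l := hl.map_eq_prod hf
  have hf0 : f ≠ 0 := fun h => by
    rw [Splitting, h, Polynomial.map_zero, eq_comm, prod_eq_zero_iff] at hsp
    obtain ⟨i, -, hi⟩ := hsp
    obtain ⟨j, hj⟩ := Fintype.exists_ne_of_one_lt_card (by rw [Fintype.card_fin]; omega) i
    refine cross_ne_zero_of_crossProd h0 hj.symm ?_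
    have h1 := congrArg (fun p => coeff p 1) hi
    have h2 := congrArg (fun p => coeff p 0) hi
    simp at h1 h2
    simp [cross, h1, h2]
  obtain ⟨g, hgd, hfg⟩ := exists_full_degree hf hf0
  obtain ⟨a, b, c, d, hdet, hhom⟩ := hfg
  have hgl := hsp.subst hgd.le hhom
  have habs : (g.discr.natAbs : ℝ) = ‖crossProd l‖ := by
    rw [show crossProd l = crossProd (substFactors l a b c d) by
      simp only [crossProd, cross_substFactors l hdet], hgl.crossProd_eq hgd (by omega),
      Complex.norm_intCast, ← Int.cast_abs, Int.abs_eq_natAbs, Int.natAbs_mul, natAbs_discrSign,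
      one_mul, Int.cast_natCast]
  refine ⟨g, hgd, ⟨a, b, c, d, hdet, hhom⟩, fun h => h0 (norm_eq_zero.1 ?_), habs⟩
  rw [← habs, h]
  simp

/-- **Birch–Merriman** in degree at least three, for forms of full degree. -/
theorem exists_finite_classes (hn : 3 ≤ n) (M : ℕ) :
    ∃ P : Finset ℤ[X], ∀ g : ℤ[X], g.natDegree = n → g.discr ≠ 0 → g.discr.natAbs ≤ M →
      ∃ g' ∈ P, SLEquiv n g g' := by
  classical
  let ι : Qb →+* ℂ := (IsAlgClosed.lift : Qb →ₐ[ℚ] ℂ).toRingHom
  obtain ⟨C, hC⟩ := exists_crossBounded n M (by omega) ι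
  obtain ⟨P, hP⟩ := exists_finite_reduced (n := n) hn C M
  refine ⟨P, fun g hgd hg0 hD => ?_⟩
  obtain ⟨m, hm⟩ := exists_splitting (E := Qb) hgd (by omega)
  have hmC : Splitting g (fun i => (ι (m i).1, ι (m i).2)) := by
    have h := congrArg (Polynomial.map ι) (hm : g.map (Int.castRingHom Qb) = _)
    rw [Polynomial.map_map, RingHom.ext_int (ι.comp (Int.castRingHom Qb)) (Int.castRingHom ℂ),
      Polynomial.map_prod] at h
    rw [Splitting, h]
    exact prod_congr rfl fun i _ => by simp
  have hnorm : ‖crossProd (fun i => (ι (m i).1, ι (m i).2))‖ = (g.discr.natAbs : ℝ) := by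
    rw [hmC.crossProd_eq hgd (by omega), Complex.norm_intCast, ← Int.cast_abs, Int.abs_eq_natAbs,
      Int.natAbs_mul, natAbs_discrSign, one_mul, Int.cast_natCast]
  exact hP g _ hgd.le (factors_of_map_eq_prod hmC) (fun h => by
      rw [h, norm_zero, eq_comm, Nat.cast_eq_zero, Int.natAbs_eq_zero] at hnorm
      exact hg0 hnorm)
    (by rw [hnorm]; exact_mod_cast hD) (hC g m hm hgd hg0 hD)

end FA.BirchMerriman

end
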