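import Fermat.Agent.BirchMerriman.CrossRatios

/-!
# Binary quadratic forms, and the theorem in every degree
-/

set_option autoImplicit false

noncomputable section

namespace FA.BirchMerriman

open Finset Polynomial

theorem binEval_two {R : Type*} [CommRing R] {f : ℤ[X]} (hf : f.natDegree ≤ 2) (x y : R) :
    binEval 2 f x y = f.coeff 2 * x ^ 2 + f.coeff 1 * x * y + f.coeff 0 * y ^ 2 := by
  have e := f.as_sum_range_C_mul_X_pow' (n := 3) (by omega)
  conv_lhs => rw [e]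
  rw [binEval, homogenize_finsetSum, sum_range_succ, sum_range_succ, sum_range_succ,
    sum_range_zero, zero_add]
  simp only [homogenize_C_mul, homogenize_X_pow (by norm_num : 0 ≤ 2),
    homogenize_X_pow (by norm_num : 1 ≤ 2), homogenize_X_pow le_rfl, map_add, map_mul, map_pow,
    MvPolynomial.aeval_X, MvPolynomial.aeval_C]
  simp [mul_assoc]
  ring

/-- Coefficients after a substitution. -/
theorem exists_subst_two {g : ℤ[X]} (hg : g.natDegree ≤ 2) {a b c d : ℤ}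
    (hdet : a * d - b * c = 1) :
    ∃ h : ℤ[X], h.natDegree ≤ 2 ∧ SLEquiv 2 g h ∧
      h.coeff 2 = g.coeff 2 * a ^ 2 + g.coeff 1 * a * c + g.coeff 0 * c ^ 2 ∧
      h.coeff 0 = g.coeff 2 * b ^ 2 + g.coeff 1 * b * d + g.coeff 0 * d ^ 2 ∧
      h.coeff 1 ^ 2 - 4 * h.coeff 0 * h.coeff 2 =
        g.coeff 1 ^ 2 - 4 * g.coeff 0 * g.coeff 2 ∧
      h.coeff 1 = 2 * g.coeff 2 * a * b + g.coeff 1 * (a * d + b * c) + 2 * g.coeff 0 * c * d := by
  obtain ⟨h, hh, heq, hval⟩ := exists_subst g 2 hdet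
  have e : ∀ x y : ℤ, ((h.coeff 2 * x ^ 2 + h.coeff 1 * x * y + h.coeff 0 * y ^ 2 : ℤ) : ℂ) =
      ((g.coeff 2 * (a * x + b * y) ^ 2 + g.coeff 1 * (a * x + b * y) * (c * x + d * y) +
        g.coeff 0 * (c * x + d * y) ^ 2 : ℤ) : ℂ) := fun x y => by
    have := hval x y
    rw [binEval_two hh, binEval_two hg] at this
    push_cast
    exact this
  have e10 := Int.cast_inj.1 (e 1 0)
  have e01 := Int.cast_inj.1 (e 0 1)
  have e11 := Int.cast_inj.1 (e 1 1)
  have h2 : h.coeff 2 = g.coeff 2 * a ^ 2 + g.coeff 1 * a * c + g.coeff 0 * c ^ 2 := by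
    linear_combination e10
  have h0 : h.coeff 0 = g.coeff 2 * b ^ 2 + g.coeff 1 * b * d + g.coeff 0 * d ^ 2 := by
    linear_combination e01
  have h1 : h.coeff 1 = 2 * g.coeff 2 * a * b + g.coeff 1 * (a * d + b * c) +
      2 * g.coeff 0 * c * d := by linear_combination e11 - e10 - e01
  refine ⟨h, hh, heq, h2, h0, ?_, h1⟩
  rw [h0, h1, h2]
  linear_combination (g.coeff 1 ^ 2 - 4 * g.coeff 0 * g.coeff 2) * (a * d - b * c + 1) * hdet

/-- **Reduced quadratic forms**, with coefficients at most the discriminant. -/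
theorem exists_reduced_quadratic {g : ℤ[X]} (hd : g.natDegree = 2) (hD0 : g.discr ≠ 0) {M : ℕ}
    (hD : g.discr.natAbs ≤ M) :
    ∃ g' : ℤ[X], g'.natDegree ≤ 2 ∧ SLEquiv 2 g g' ∧ ∀ i, |(g'.coeff i : ℝ)| ≤ M := by
  classical
  rw [discr_of_degree_eq_two (by
    rw [degree_eq_natDegree (fun h => by simp [h] at hd), hd]
    rfl)] at hD0 hD
  set D := g.coeff 1 ^ 2 - 4 * g.coeff 0 * g.coeff 2
  have hDle : |D| ≤ M := by rw [Int.abs_eq_natAbs]; exact_mod_cast hD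
  set val : ℤ × ℤ → ℕ := fun v =>
    (g.coeff 2 * v.1 ^ 2 + g.coeff 1 * v.1 * v.2 + g.coeff 0 * v.2 ^ 2).natAbs with hvaldef
  have hex : ∃ m, ∃ v : ℤ × ℤ, v ≠ 0 ∧ val v = m := ⟨_, (1, 0), by simp, rfl⟩
  obtain ⟨v, hv0, hv⟩ := Nat.find_spec hex
  set m := Nat.find hex
  have hmin : ∀ w : ℤ × ℤ, w ≠ 0 → m ≤ val w := fun w hw => Nat.find_min' hex ⟨w, hw, rfl⟩
  -- a primitive vector of least value
  obtain ⟨a, c, hgcd, hac⟩ : ∃ a c : ℤ, Int.gcd a c = 1 ∧ val (a, c) = m := by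
    set k := Int.gcd v.1 v.2 with hk
    have hk0 : 0 < k := Nat.pos_of_ne_zero fun h => hv0 (by
      obtain ⟨h1, h2⟩ := Int.gcd_eq_zero_iff.1 h
      exact Prod.ext h1 h2)
    obtain ⟨a, c, hac, h1, h2⟩ := Int.exists_gcd_one hk0
    refine ⟨a, c, hac, ?_⟩
    have e : val v = k ^ 2 * val (a, c) := by
      simp only [hvaldef]
      rw [show g.coeff 2 * v.1 ^ 2 + g.coeff 1 * v.1 * v.2 + g.coeff 0 * v.2 ^ 2 = (k : ℤ) ^ 2 *
        (g.coeff 2 * a ^ 2 + g.coeff 1 * a * c + g.coeff 0 * c ^ 2) by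
          rw [← hk] at h1 h2; rw [h1, h2]; ring,
        Int.natAbs_mul, Int.natAbs_pow, Int.natAbs_natCast]
    have h3 := hmin (a, c) (fun h => by
      simp only [Prod.mk_eq_zero] at h
      simp [h.1, h.2] at hac)
    have h4 : val (a, c) ≤ val v := e ▸ Nat.le_mul_of_pos_left _ (pow_pos hk0 2)
    omega
  obtain ⟨u, w, huw⟩ : ∃ u w : ℤ, a * u + c * w = 1 := ⟨_, _, by
    rw [← Int.gcd_eq_gcd_ab, hgcd]; rfl⟩
  obtain ⟨h, hh, heq, h2, h0, hdisc, h1⟩ := exists_subst_two (a := a) (b := -w) (c := c) (d := u)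
    hd.le (by linear_combination huw)
  have hdiscD : h.coeff 1 ^ 2 - 4 * h.coeff 0 * h.coeff 2 = D := hdisc
  have hm2 : (h.coeff 2).natAbs = m := by rw [h2]; exact hac
  -- now shift the middle coefficient
  by_cases hA : h.coeff 2 = 0
  · have hB : h.coeff 1 ≠ 0 := fun e => hD0 (by rw [← hdiscD, e, hA]; ring)
    obtain ⟨k, hk⟩ : ∃ k : ℤ, |h.coeff 0 + k * h.coeff 1| ≤ |h.coeff 1| :=
      ⟨-(h.coeff 0 / h.coeff 1), by
        rw [show h.coeff 0 + -(h.coeff 0 / h.coeff 1) * h.coeff 1 = h.coeff 0 % h.coeff 1 by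
          rw [Int.emod_def]; ring, abs_of_nonneg (Int.emod_nonneg _ hB)]
        exact (Int.emod_lt_abs _ hB).le⟩
    obtain ⟨h', hh', heq', h2', h0', hdisc', h1'⟩ := exists_subst_two (a := 1) (b := k) (c := 0)
      (d := 1) hh (by ring)
    rw [hA] at h2' h0' h1'
    simp only [mul_zero, zero_mul, add_zero, zero_add, mul_one, one_pow] at h2' h0' h1'
    have hB2 : h.coeff 1 ^ 2 = D := by rw [← hdiscD, hA]; ring
    have hBle : |h.coeff 1| ≤ M := by
      refine le_trans ?_ hDle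
      rw [← hB2, abs_pow, sq]
      exact le_mul_of_one_le_left (abs_nonneg _) (Int.one_le_abs hB)
    refine ⟨h', hh', heq.trans heq', fun i => ?_⟩
    rcases i with _ | _ | _ | i
    · rw [h0', ← Int.cast_abs, ← Int.cast_natCast]
      refine Int.cast_le.2 (le_trans ?_ hBle)
      rwa [add_comm, mul_comm]
    · rw [h1', ← Int.cast_abs, ← Int.cast_natCast]
      exact Int.cast_le.2 hBle
    · rw [show (0 + 1 + 1 : ℕ) = 2 from rfl, h2']
      simp
    · rw [coeff_eq_zero_of_natDegree_lt (by omega)]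
      simp
  obtain ⟨k, hk⟩ : ∃ k : ℤ, |h.coeff 1 + 2 * k * h.coeff 2| ≤ |h.coeff 2| := by
    refine ⟨-((h.coeff 1 + |h.coeff 2|) / (2 * h.coeff 2)), ?_⟩
    have e := Int.emod_def (h.coeff 1 + |h.coeff 2|) (2 * h.coeff 2)
    have h1 := Int.emod_nonneg (h.coeff 1 + |h.coeff 2|) (mul_ne_zero two_ne_zero hA)
    have h3 := Int.emod_lt_abs (h.coeff 1 + |h.coeff 2|) (mul_ne_zero two_ne_zero hA)
    rw [abs_mul, abs_two] at h3
    rw [abs_le]
    constructor <;> linarith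
  obtain ⟨h', hh', heq', h2', h0', hdisc', h1'⟩ := exists_subst_two (a := 1) (b := k) (c := 0)
    (d := 1) hh (by ring)
  have hA' : h'.coeff 2 = h.coeff 2 := by rw [h2']; ring
  have hB' : |h'.coeff 1| ≤ |h'.coeff 2| := by
    rw [hA', h1']
    convert hk using 2
    ring
  have hC' : |h'.coeff 2| ≤ |h'.coeff 0| := by
    rw [hA', h0', h0, Int.abs_eq_natAbs, Int.abs_eq_natAbs, hm2]
    have hne : ((a * k - w, c * k + u) : ℤ × ℤ) ≠ 0 := fun e => by
      simp only [Prod.mk_eq_zero] at e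
      have : a * (c * k + u) - c * (a * k - w) = 1 := by linear_combination huw
      rw [e.1, e.2] at this
      simp at this
    refine Int.ofNat_le.2 ((hmin _ hne).trans (le_of_eq ?_))
    simp only [hvaldef]
    congr 1
    rw [h2, h1]
    ring
  have h4 : 3 * h'.coeff 2 ^ 2 ≤ |D| := by
    have e1 : 4 * (|h'.coeff 2| * |h'.coeff 0|) ≤ |h'.coeff 1| ^ 2 + |D| := by
      rw [← abs_mul, ← abs_pow, show (4 : ℤ) = |(4 : ℤ)| from rfl, ← abs_mul]
      refine le_trans (le_of_eq ?_) (abs_sub (h'.coeff 1 ^ 2) D)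
      rw [← hdiscD, ← hdisc']
      congr 1
      ring
    have e2 := mul_le_mul_of_nonneg_left hC' (abs_nonneg (h'.coeff 2))
    have e3 := pow_le_pow_left₀ (abs_nonneg _) hB' 2
    rw [← sq_abs (h'.coeff 2)]
    linarith [sq (|h'.coeff 2|)]
  have hA1 : 1 ≤ |h'.coeff 2| := Int.one_le_abs (hA' ▸ hA)
  have hAM : |h'.coeff 2| ≤ M := by nlinarith [sq_abs (h'.coeff 2)]
  have hCM : |h'.coeff 0| ≤ M := by
    have e1 : 4 * (|h'.coeff 2| * |h'.coeff 0|) ≤ |h'.coeff 1| ^ 2 + |D| := by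
      rw [← abs_mul, ← abs_pow, show (4 : ℤ) = |(4 : ℤ)| from rfl, ← abs_mul]
      refine le_trans (le_of_eq ?_) (abs_sub (h'.coeff 1 ^ 2) D)
      rw [← hdiscD, ← hdisc']
      congr 1
      ring
    have e3 := pow_le_pow_left₀ (abs_nonneg _) hB' 2
    rw [sq_abs (h'.coeff 2)] at e3
    nlinarith [mul_le_mul_of_nonneg_right hA1 (abs_nonneg (h'.coeff 0))]
  refine ⟨h', hh', heq.trans heq', fun i => ?_⟩
  rcases i with _ | _ | _ | i
  · rw [← Int.cast_abs, ← Int.cast_natCast]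
    exact Int.cast_le.2 hCM
  · rw [← Int.cast_abs, ← Int.cast_natCast]
    exact Int.cast_le.2 (hB'.trans hAM)
  · rw [← Int.cast_abs, ← Int.cast_natCast]
    exact Int.cast_le.2 hAM
  · rw [coeff_eq_zero_of_natDegree_lt (by omega)]
    simp

theorem exists_finite_quadratic (M : ℕ) :
    ∃ P : Finset ℤ[X], ∀ g : ℤ[X], g.natDegree = 2 → g.discr ≠ 0 → g.discr.natAbs ≤ M →
      ∃ g' ∈ P, SLEquiv 2 g g' :=
  ⟨(finite_bounded_polys 2 M).toFinset, fun _ hd hD0 hD =>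
    let ⟨g', hg', he, hB⟩ := exists_reduced_quadratic hd hD0 hD
    ⟨g', (Set.Finite.mem_toFinset _).2 ⟨hg', hB⟩, he⟩⟩

/-- **The theorem of Birch and Merriman** for forms given by linear factors. -/
theorem exists_finite_classes_factors {n : ℕ} (hn : 2 ≤ n) (M : ℕ) :
    ∃ P : Finset ℤ[X], ∀ (f : ℤ[X]) (l : Fin n → ℂ × ℂ), f.natDegree ≤ n → Factors n f l →
      crossProd l ≠ 0 → ‖crossProd l‖ ≤ M → ∃ g ∈ P, SLEquiv n f g := by
  obtain ⟨P, hP⟩ : ∃ P : Finset ℤ[X], ∀ g : ℤ[X], g.natDegree = n → g.discr ≠ 0 →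
      g.discr.natAbs ≤ M → ∃ g' ∈ P, SLEquiv n g g' := by
    rcases eq_or_lt_of_le hn with h | h
    · subst h
      exact exists_finite_quadratic M
    · exact exists_finite_classes h M
  refine ⟨P, fun f l hf hl h0 hM => ?_⟩
  obtain ⟨g, hgd, hfg, hg0, habs⟩ := exists_full hn hf hl h0
  obtain ⟨g', hg', he⟩ := hP g hgd hg0 (by rw [← habs] at hM; exact_mod_cast hM)
  exact ⟨g', hg', hfg.trans he⟩

/-- **The theorem of Birch and Merriman.** -/
theorem exists_finite_classes_discr {n : ℕ} (hn : 2 ≤ n) (M : ℕ) :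
    ∃ P : Finset ℤ[X], ∀ f : ℤ[X], formDiscr n f ≠ 0 → (formDiscr n f).natAbs ≤ M →
      ∃ g ∈ P, SLEquiv n f g := by
  obtain ⟨P, hP⟩ := exists_finite_classes_factors hn M
  refine ⟨P, fun f h0 hD => ?_⟩
  obtain ⟨hf, l, hl, hld⟩ := exists_factors hn h0
  refine hP f l hf hl (fun h => ?_) ?_
  · rw [h, norm_zero, eq_comm, abs_eq_zero, Int.cast_eq_zero] at hld
    exact h0 hld
  · rw [hld, ← Int.cast_abs, Int.abs_eq_natAbs, Int.cast_natCast]
    exact_mod_cast hD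

end FA.BirchMerriman

end
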