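import Fermat.Agent.BirchMerriman.Basic
import Mathlib.RingTheory.Polynomial.Resultant.Basic
import Mathlib.Algebra.Field.ZMod

/-!
# Changes of coordinates and the discriminant through the linear factors

After a substitution the form has full degree, and its leading coefficient avoids a given prime
larger than the degree and not dividing the discriminant.
-/

set_option autoImplicit false

noncomputable section

namespace FA.BirchMerriman

open Finset Polynomial
open MvPolynomial (aeval)

variable {E : Type*} [Field E] {n : ℕ}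

/-- `l` are linear factors of `f` over `E`. -/
def Splitting (f : ℤ[X]) (l : Fin n → E × E) : Prop :=
  f.map (Int.castRingHom E) = ∏ i, (C (l i).1 * X + C (l i).2)

theorem Splitting.binEval_eq {f : ℤ[X]} {l : Fin n → E × E} (h : Splitting f l) (x y : E) :
    binEval n f x y = ∏ i, ((l i).1 * x + (l i).2 * y) := by
  have h2 := homogenize_finsetProd (s := (univ : Finset (Fin n)))
    (p := fun i => C (l i).1 * X + C (l i).2) (n := fun _ => 1) fun i _ => natDegree_linear_le
  simp only [sum_const, card_univ, Fintype.card_fin, smul_eq_mul, mul_one] at h2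
  rw [binEval, show aeval ![x, y] (f.homogenize n) =
    MvPolynomial.eval ![x, y] ((f.map (Int.castRingHom E)).homogenize n) by
    rw [homogenize_map, MvPolynomial.eval_map]; rfl, h, h2, map_prod]
  refine prod_congr rfl fun i _ => ?_
  rw [homogenize_add, homogenize_C_mul, homogenize_X one_ne_zero, homogenize_C]
  simp

/-- The substitution as a statement on values. -/
theorem binEval_of_eq {R : Type*} [CommRing R] {f g : ℤ[X]} {a b c d : ℤ}
    (h : g.homogenize n =
      aeval ![MvPolynomial.C a * MvPolynomial.X 0 + MvPolynomial.C b * MvPolynomial.X 1,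
      MvPolynomial.C c * MvPolynomial.X 0 + MvPolynomial.C d * MvPolynomial.X 1] (f.homogenize n))
    (x y : R) : binEval n g x y = binEval n f (a * x + b * y) (c * x + d * y) := by
  rw [binEval, h, MvPolynomial.comp_aeval_apply, binEval]
  congr 2
  funext i
  fin_cases i <;> simp

theorem Splitting.subst [Infinite E] {f g : ℤ[X]} {l : Fin n → E × E} (hl : Splitting f l)
    (hg : g.natDegree ≤ n) {a b c d : ℤ}
    (h : g.homogenize n =
      aeval ![MvPolynomial.C a * MvPolynomial.X 0 + MvPolynomial.C b * MvPolynomial.X 1,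
      MvPolynomial.C c * MvPolynomial.X 0 + MvPolynomial.C d * MvPolynomial.X 1] (f.homogenize n)) :
    Splitting g (substFactors l a b c d) := by
  refine Polynomial.funext fun x => ?_
  have h1 : binEval n g x 1 = ∏ i, ((substFactors l a b c d i).1 * x +
      (substFactors l a b c d i).2) := by
    rw [binEval_of_eq h, hl.binEval_eq]
    exact prod_congr rfl fun i _ => by simp only [substFactors]; ring
  rw [binEval_one hg] at h1
  simp only [eval_prod, eval_add, eval_mul, eval_C, eval_X]
  rw [eval_map, ← h1, Polynomial.aeval_def]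
  rfl

theorem SLEquiv.trans {f g h : ℤ[X]} (h1 : SLEquiv n f g) (h2 : SLEquiv n g h) :
    SLEquiv n f h := by
  obtain ⟨a, b, c, d, hdet, e1⟩ := h1
  obtain ⟨a', b', c', d', hdet', e2⟩ := h2
  refine ⟨a * a' + b * c', a * b' + b * d', c * a' + d * c', c * b' + d * d',
    by linear_combination (a' * d' - b' * c') * hdet + hdet', ?_⟩
  rw [e2, e1, MvPolynomial.comp_aeval_apply]
  congr 2
  funext i
  fin_cases i <;> simp <;> ring

theorem crossProd_smul {R : Type*} [CommRing R] (w : Fin n → R) (l : Fin n → R × R) :
    crossProd (fun i => w i • l i) = (∏ i, w i) ^ (2 * (n - 1)) * crossProd l := by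
  classical
  have hc : ∀ i j, cross (w i • l i) (w j • l j) = w i * w j * cross (l i) (l j) := fun i j => by
    simp only [cross, Prod.smul_fst, Prod.smul_snd, smul_eq_mul]
    ring
  have h2 : ∏ i, ∏ j ∈ univ.erase i, w j = (∏ i, w i) ^ (n - 1) := by
    rw [prod_comm' (t' := univ) (s' := fun j => univ.erase j)
      (fun x y => by simp [eq_comm]), ← prod_pow]
    exact prod_congr rfl fun j _ => by simp [card_erase_of_mem]
  simp only [crossProd, hc, prod_mul_distrib, h2, prod_const, card_erase_of_mem (mem_univ _),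
    card_univ, Fintype.card_fin, prod_pow]
  rw [← pow_add]
  congr 2
  omega

/-- The sign of the discriminant against the product of all determinants. -/
def discrSign (n : ℕ) : ℤ := (-1) ^ (n * (n - 1) / 2)

theorem natAbs_discrSign (n : ℕ) : (discrSign n).natAbs = 1 := by simp [discrSign, Int.natAbs_pow]

theorem discrSign_ne_zero (n : ℕ) : discrSign n ≠ 0 := pow_ne_zero _ (by norm_num)

theorem Splitting.fst_ne_zero [CharZero E] {g : ℤ[X]} {l : Fin n → E × E} (h : Splitting g l)
    (hd : g.natDegree = n) (i : Fin n) : (l i).1 ≠ 0 := by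
  subst hd
  set F := g.map (Int.castRingHom E)
  have hdeg : F.natDegree = g.natDegree := natDegree_map_eq_of_injective Int.cast_injective g
  intro hi
  have h1 : (∏ j, (C (l j).1 * X + C (l j).2)).natDegree ≤
      ∑ j, (C (l j).1 * X + C (l j).2).natDegree := natDegree_prod_le _ _
  rw [← h, hdeg, ← add_sum_erase univ _ (mem_univ i), hi, map_zero, zero_mul, zero_add,
    natDegree_C, zero_add] at h1
  have h2 := h1.trans (sum_le_sum fun j _ => natDegree_linear_le)
  simp [card_erase_of_mem] at h2
  have := i.isLt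
  omega

/-- **The discriminant through the factors.** -/
theorem Splitting.crossProd_eq [CharZero E] {g : ℤ[X]} {l : Fin n → E × E} (h : Splitting g l)
    (hd : g.natDegree = n) (hn : 0 < n) :
    crossProd l = ((discrSign n * g.discr : ℤ) : E) := by
  classical
  subst hd
  set F := g.map (Int.castRingHom E)
  have hg0 : g ≠ 0 := fun e => by rw [e, natDegree_zero] at hn; omega
  have hdeg : F.natDegree = g.natDegree := natDegree_map_eq_of_injective Int.cast_injective g
  have hlc : F.leadingCoeff = (g.leadingCoeff : E) :=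
    leadingCoeff_map_of_injective Int.cast_injective g
  have hne : ∀ i, (l i).1 ≠ 0 := h.fst_ne_zero rfl
  set θ := fun i => -(l i).2 / (l i).1
  have hfac : ∀ i, C (l i).1 * X + C (l i).2 = C (l i).1 * (X - C (θ i)) := fun i => by
    rw [mul_sub, ← C_mul, mul_div_cancel₀ _ (hne i), C_neg, sub_neg_eq_add]
  have hF : F = C (∏ i, (l i).1) * ∏ i, (X - C (θ i)) := by
    rw [show F = _ from h, map_prod, ← prod_mul_distrib]
    exact prod_congr rfl fun i _ => hfac i
  have hα0 : ∏ i, (l i).1 ≠ 0 := prod_ne_zero_iff.2 fun i _ => hne i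
  have hroots : F.roots = (univ : Finset (Fin g.natDegree)).val.map θ := by
    rw [hF, roots_C_mul _ hα0, Finset.prod_eq_multiset_prod,
      show (univ : Finset (Fin g.natDegree)).val.map (fun i => X - C (θ i)) =
        ((univ : Finset (Fin g.natDegree)).val.map θ).map (fun a => X - C a) by
        rw [Multiset.map_map]; rfl,
      roots_multiset_prod_X_sub_C]
  have hlcα : (g.leadingCoeff : E) = ∏ i, (l i).1 := by
    rw [← hlc, hF, leadingCoeff_mul, leadingCoeff_C,
      (monic_prod_of_monic _ _ fun i _ => monic_X_sub_C _).leadingCoeff, mul_one]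
  have hsplit : F.Splits := by
    rw [hF]
    exact (Splits.C _).mul (Splits.prod fun i _ => Splits.X_sub_C _)
  have hres := resultant_eq_prod_eval F F.derivative (g.natDegree - 1)
      ((natDegree_derivative_le _).trans (by rw [hdeg])) hsplit
  rw [hlc, hdeg, derivative_map, resultant_map_map,
    resultant_deriv (natDegree_pos_iff_degree_pos.1 hn), eq_intCast, ← derivative_map, hroots,
    Multiset.map_map, ← Finset.prod_eq_multiset_prod] at hres
  have hder : ∀ i, F.derivative.eval (θ i) * (l i).1 ^ (g.natDegree - 1) =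
      (l i).1 * ∏ j ∈ univ.erase i, cross (l i) (l j) := fun i => by
    rw [show F = _ from h, derivative_prod_finset, eval_finsetSum, sum_eq_single i]
    · have hz : ∀ j, (l j).1 * θ i + (l j).2 = cross (l i) (l j) / (l i).1 := fun j => by
        rw [eq_div_iff (hne i)]
        simp only [θ, cross]
        field_simp [hne i]
        ring
      simp only [eval_mul, eval_prod, eval_add, eval_C, eval_X, derivative_mul, derivative_C,
        derivative_X, zero_mul, zero_add, mul_one, derivative_add, add_zero, hz]
      rw [prod_div_distrib, prod_const, card_erase_of_mem (mem_univ i), card_univ,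
        Fintype.card_fin]
      field_simp [hne i]
    · intro j _ hji
      rw [eval_mul, eval_prod, prod_eq_zero (mem_erase.2 ⟨hji.symm, mem_univ i⟩), zero_mul]
      simp [θ, mul_div_cancel₀ _ (hne i)]
    · exact fun h => absurd (mem_univ i) h
  have hprod := prod_congr rfl fun i (_ : i ∈ (univ : Finset (Fin g.natDegree))) => hder i
  simp only [prod_mul_distrib, prod_pow] at hprod
  rw [← hlcα] at hprod
  simp only [Function.comp_def] at hres
  rw [crossProd]
  refine mul_left_cancel₀ (a := (g.leadingCoeff : E)) (hlcα ▸ hα0) ?_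
  rw [← hprod, mul_comm _ ((g.leadingCoeff : E) ^ _), ← hres, discrSign]
  push_cast
  ring

theorem exists_splitting_of_splits [CharZero E] {g : ℤ[X]} (hd : g.natDegree = n) (hn : 0 < n)
    (hs : (g.map (Int.castRingHom E)).Splits) : ∃ l : Fin n → E × E, Splitting g l := by
  classical
  subst hd
  set F := g.map (Int.castRingHom E)
  have hcard : F.roots.toList.length = g.natDegree := by
    rw [Multiset.length_toList, ← hs.natDegree_eq_card_roots,
      natDegree_map_eq_of_injective Int.cast_injective g]
  set θ : Fin g.natDegree → E := fun i => F.roots.toList[(i : ℕ)]'(hcard.symm ▸ i.2)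
  set z : Fin g.natDegree := ⟨0, hn⟩
  refine ⟨fun i => ((if i = z then F.leadingCoeff else 1),
    -((if i = z then F.leadingCoeff else 1) * θ i)), ?_⟩
  have h1 : ∀ i, C (if i = z then F.leadingCoeff else 1) * X +
      C (-((if i = z then F.leadingCoeff else 1) * θ i)) =
      C (if i = z then F.leadingCoeff else 1) * (X - C (θ i)) := fun i => by
    rw [map_neg, map_mul, mul_sub, sub_eq_add_neg]
  show F = _
  conv_lhs => rw [hs.eq_prod_roots]
  simp only [h1, prod_mul_distrib, ← map_prod, prod_ite_eq', mem_univ, if_true]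
  congr 1
  rw [← Multiset.coe_toList F.roots, Multiset.map_coe, Multiset.prod_coe, ← List.prod_ofFn]
  congr 1
  refine List.ext_getElem (by simp [hcard]) fun i hi hi' => ?_
  simp [θ]

theorem exists_splitting [IsAlgClosed E] [CharZero E] {g : ℤ[X]} (hd : g.natDegree = n)
    (hn : 0 < n) : ∃ l : Fin n → E × E, Splitting g l :=
  exists_splitting_of_splits hd hn (IsAlgClosed.splits _)

theorem natDegree_eq_of_coeff_ne {g : ℤ[X]} (hg : g.natDegree ≤ n) (h : g.coeff n ≠ 0) :
    g.natDegree = n :=
  le_antisymm hg (le_natDegree_of_ne_zero h)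

/-- The substitution putting `(x : 1)` at infinity. -/
theorem exists_moved {f : ℤ[X]} (hf : f.natDegree ≤ n) (x : ℤ) :
    ∃ g : ℤ[X], g.natDegree ≤ n ∧ SLEquiv n f g ∧ g.coeff n = f.eval x ∧
      g.homogenize n = aeval ![MvPolynomial.C x * MvPolynomial.X 0 +
        MvPolynomial.C (-1) * MvPolynomial.X 1,
        MvPolynomial.C 1 * MvPolynomial.X 0 + MvPolynomial.C 0 * MvPolynomial.X 1]
          (f.homogenize n) := by
  set v : Fin 2 → MvPolynomial (Fin 2) ℤ :=
    ![MvPolynomial.C x * MvPolynomial.X 0 + MvPolynomial.C (-1) * MvPolynomial.X 1,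
      MvPolynomial.C 1 * MvPolynomial.X 0 + MvPolynomial.C 0 * MvPolynomial.X 1]
  have hG : (aeval v (f.homogenize n)).IsHomogeneous n := by
    have h := (isHomogeneous_homogenize (n := n) f).aeval v (n := 1) fun i => by
      fin_cases i <;>
        exact (MvPolynomial.isHomogeneous_C_mul_X _ _).add (MvPolynomial.isHomogeneous_C_mul_X _ _)
    rwa [one_mul] at h
  set g : ℤ[X] := aeval ![X, 1] (aeval v (f.homogenize n)) with hg
  have hhom : g.homogenize n = aeval v (f.homogenize n) := homogenize_eq_of_isHomogeneous hG rfl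
  have hgd : g.natDegree ≤ n := by
    rw [hg, MvPolynomial.aeval_def, MvPolynomial.eval₂_eq']
    refine natDegree_sum_le_of_forall_le _ _ fun m hm => ?_
    have h := hG.degree_eq_sum_deg_support hm
    rw [sum_subset (subset_univ _) (fun i _ hi => by simpa using hi), Fin.sum_univ_two] at h
    rw [Fin.prod_univ_two]
    simp only [Matrix.cons_val_zero, Matrix.cons_val_one, one_pow, mul_one]
    exact (natDegree_C_mul_le _ _).trans (by rw [natDegree_X_pow]; omega)
  refine ⟨g, hgd, ⟨x, -1, 1, 0, by ring, hhom⟩, ?_, hhom⟩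
  have h1 : binEval n g (1 : ℤ) 0 = f.eval x := by
    rw [binEval_of_eq hhom]
    simp only [Int.cast_id, Int.cast_one, Int.cast_zero, mul_one, mul_zero, add_zero]
    rw [binEval_one hf]
    simp
  rw [← h1, binEval, homogenize, map_sum, sum_eq_single_of_mem (n, 0) (by simp)]
  · simp [MvPolynomial.eval_monomial, Finsupp.prod_fintype, Fin.prod_univ_two]
  · intro b hb hb'
    have hb2 : b.2 ≠ 0 := fun h => hb' (Prod.ext (by
      have := mem_antidiagonal.1 hb; omega) h)
    simp [MvPolynomial.eval_monomial, Finsupp.prod_fintype, Fin.prod_univ_two, hb2]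

/-- A shift to full degree. -/
theorem exists_full_degree {f : ℤ[X]} (hf : f.natDegree ≤ n) (hf0 : f ≠ 0) :
    ∃ g : ℤ[X], g.natDegree = n ∧ SLEquiv n f g := by
  obtain ⟨x, hx⟩ : ∃ x : ℤ, f.eval x ≠ 0 := by
    by_contra! h
    exact hf0 (Polynomial.funext fun x => by simp [h x])
  obtain ⟨g, hg, he, hc, -⟩ := exists_moved hf x
  exact ⟨g, natDegree_eq_of_coeff_ne hg (hc ▸ hx), he⟩

/-- A shift making the leading coefficient prime to `q`. -/
theorem exists_unit_lead {f : ℤ[X]} (hd : f.natDegree = n) (hn : 2 ≤ n) {q : ℕ} (hq : q.Prime)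
    (hqn : n < q) (hqD : ¬(q : ℤ) ∣ f.discr) :
    ∃ (g : ℤ[X]) (x : ℤ), g.natDegree = n ∧ ¬(q : ℤ) ∣ g.coeff n ∧
      g.homogenize n = aeval ![MvPolynomial.C x * MvPolynomial.X 0 +
        MvPolynomial.C (-1) * MvPolynomial.X 1,
        MvPolynomial.C 1 * MvPolynomial.X 0 + MvPolynomial.C 0 * MvPolynomial.X 1]
          (f.homogenize n) := by
  classical
  have := Fact.mk hq
  set fq := f.map (Int.castRingHom (ZMod q))
  have hfq : fq ≠ 0 := fun h => by
    have hdiv : ∀ k, (q : ℤ) ∣ f.coeff k := fun k => by
      rw [← ZMod.intCast_zmod_eq_zero_iff_dvd]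
      simpa [fq] using congrArg (fun p => coeff p k) h
    obtain ⟨f', hf'⟩ := (C_dvd_iff_dvd_coeff (q : ℤ) f).2 hdiv
    have hq0 : (q : ℤ) ≠ 0 := Nat.cast_ne_zero.2 hq.ne_zero
    have hd' : f'.natDegree = n := by rw [← hd, hf', natDegree_C_mul hq0]
    obtain ⟨l, hl⟩ := exists_splitting (E := ℂ) hd' (by omega)
    set w : Fin n → ℂ := fun i => if i = ⟨0, by omega⟩ then (q : ℂ) else 1
    have hl' : Splitting f (fun i => w i • l i) := by
      rw [Splitting, hf', Polynomial.map_mul, Polynomial.map_C, hl]
      simp only [Prod.smul_fst, Prod.smul_snd, smul_eq_mul, map_mul, mul_assoc, ← mul_add,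
        prod_mul_distrib]
      congr 1
      rw [← map_prod]
      simp [w]
    have h1 := hl'.crossProd_eq hd (by omega)
    rw [crossProd_smul, hl.crossProd_eq hd' (by omega)] at h1
    simp only [w, prod_ite_eq', mem_univ, if_true] at h1
    have h2 : (q : ℤ) ^ (2 * (n - 1)) * (discrSign n * f'.discr) = discrSign n * f.discr := by
      exact_mod_cast h1
    refine hqD ?_
    have h3 : (q : ℤ) ∣ discrSign n * f.discr :=
      h2 ▸ dvd_mul_of_dvd_left (dvd_pow_self _ (by omega)) _
    rcases Int.natAbs_eq_iff.1 (natAbs_discrSign n) with e | e <;> simpa [e] using h3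
  obtain ⟨x, hx⟩ : ∃ x : ZMod q, fq.eval x ≠ 0 := by
    by_contra! h
    refine hfq (eq_zero_of_natDegree_lt_card_of_eval_eq_zero' fq univ (fun x _ => h x) ?_)
    rw [card_univ, ZMod.card]
    exact lt_of_le_of_lt (natDegree_map_le.trans hd.le) hqn
  obtain ⟨g, hg, -, hc, hhom⟩ := exists_moved hd.le (x.val : ℤ)
  have hnd : ¬(q : ℤ) ∣ g.coeff n := by
    rw [hc, ← ZMod.intCast_zmod_eq_zero_iff_dvd]
    have e := eval₂_at_apply (Int.castRingHom (ZMod q)) (p := f) (x.val : ℤ)
    simp only [eq_intCast, Int.cast_natCast, ZMod.natCast_zmod_val] at e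
    rw [← e]
    simpa [fq, eval_map] using hx
  exact ⟨g, x.val, natDegree_eq_of_coeff_ne hg (fun h => hnd (h ▸ dvd_zero _)), hnd, hhom⟩

end FA.BirchMerriman

end
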